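import Fermat.Agent.MAZ.End.X0Light
import Fermat.Agent.MAZ.Main
import Fermat.Agent.MAZ.Geo.FinBridge

/-!
# MAZ / End / X0 : `CoreNum` from `MAZ.core_inf`; S12
-/

set_option autoImplicit false

namespace Fermat.Agent.MAZ.End

open Fermat.Agent.S13 Fermat.Agent.MAZ.Ell

theorem coreNum {N : ℕ} (hN : N.Prime) (hN' : N ∉ ({2, 3, 5, 7, 13} : Finset ℕ)) : CoreNum N := by
  intro W Q hord hc₄ hc₆ hΔ hlam hσj hσu A₂ A₃ A hA₂ hA₃ ℓ hℓ hℓN hℓN1 hA h2j h2u h3j h3u hlu hlw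
  haveI : NeZero N := ⟨hN.ne_zero⟩
  have hN2 : N ≠ 2 := by
    rintro rfl
    simp at hN'
  obtain ⟨x, hxj, hxu⟩ := Fermat.Agent.MAZ.Dict.exists_place_of_point N hN hN2 W Q hord hc₄ hc₆ hΔ
  exact Fermat.Agent.MAZ.core_inf N hN hN' (Fermat.Agent.MAZ.finMain_all hN)
    (div_ne_zero (pow_ne_zero _ hc₄) hΔ) hlam hxj hxu hσj hσu hA₂ hA₃ hℓ hℓN hℓN1 hA
    h2j h2u h3j h3u hlu hlw

theorem x0Hyp (P : FreyPackage) (hp : 17 ≤ P.p) : X0Hyp P :=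
  x0Hyp_of_coreNum P hp (coreNum P.pp (by
    simp only [Finset.mem_insert, Finset.mem_singleton, not_or]
    omega))

end Fermat.Agent.MAZ.End
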