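import Fermat.Agent.S13
import Fermat.Agent.HW.Main
import Fermat.Agent.GAL.ChebWire
import Fermat.Agent.GAL.CycloChar
import Fermat.Agent.S54.Frobenius

/-!
# MAZ / End / Gal : the Galois action on a cofixed line of the Frey curve   (S12-END)

`N ⊂ E[p]` Galois stable line, `G_ℚ` acts trivially on `E[p]/N` (`hcof`).

* [GAL-0] `freyCurveInt` is an integral model of `freyCurve` (`S13.frey_a2_int`, `S13.frey_b_pow`), its discriminant.
* [GAL-F] `HW.frobenius_relation` transported to `Tors P`.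
* [GAL-1] `σ x = χ_p(σ) x` on `N`.  PROOF.  Let `τ` be a Frobenius at a good `ℓ ∤ 2p`, `a := a_ℓ`.
  `x₀ ∉ N`: `τ x₀ ≡ x₀ mod N`, so (GAL-F) gives `(1 - a + ℓ) x₀ ∈ N`, i.e. `a = 1 + ℓ` in `ZMod p`.
  `0 ≠ e ∈ N`, `τ e = t e`: `t² - a t + ℓ = (t - 1)(t - ℓ) = 0`; so `τ` acts on `N` by `1` or by `ℓ = χ_p(τ)`
  (`GAL.cycloChar_of_isFrobeniusAt`).  `GAL.genCheb` with `L :=` (level of `E[p]`, `S13.exists_level`) `⊔` (level of `χ_p`,
  `GAL.cycloChar_finiteLevel`), `T :=` primes dividing `2 p a b c`: every `σ` acts on `E[p]` and on `μ_p` as `τ ^ c`.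
  Hence every `σ` lies in `S13.H1 N` or in `Hχ := {σ | ∀ x ∈ N, σ x = χ_p(σ) x}`; a group is not the union of two proper
  subgroups; `H1 N = ⊤` contradicts `S13.wpE`.
* [GAL-2] `3 ∣ abc`: otherwise (GAL-F) at `ℓ = 3` gives `p ∣ 1 - a₃ + 3 = #E(𝔽₃)`, and `1 ≤ #E(𝔽₃) ≤ 7`
  (`HW.card_points`, `quadraticChar ∈ {-1,0,1}`).
* [GAL-P] at `A ∣ p` the nonzero points of `N` have non integral `x`-coordinate.  PROOF = first branch of `S13.assembly`:
  if `xc x ∈ A` for one `0 ≠ x ∈ N` then for all of them (`S13.InE1.zsmul`: `E₁` is a subgroup), `S13.wpC` gives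
  `I_A ≤ H1 N`; away from `p`: `S05.result`, `S13.wpD` + `S13.unipotent_mem`; `S13.eq_top_of_inertia_le`; `S13.wpE`.
-/

set_option autoImplicit false

namespace Fermat.Agent.MAZ.End

open WeierstrassCurve WeierstrassCurve.Affine WeierstrassCurve.Affine.Point
open FreyPackage
open Fermat.Agent.S05 (xc yc)
open Fermat.Agent.S13

instance neZeroP (P : FreyPackage) : NeZero P.p := ⟨P.hp0⟩

lemma frey_a4_int (P : FreyPackage) : ∃ n : ℤ, -(P.a ^ P.p) * (P.b ^ P.p) = 16 * n := by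
  obtain ⟨m, hm⟩ := frey_b_pow P
  exact ⟨-(P.a ^ P.p) * (2 * m), by rw [hm]; ring⟩

/-- **[GAL-0]** -/
theorem freyCurveInt_map (P : FreyPackage) :
    P.freyCurveInt.map (Int.castRingHom ℚ) = P.freyCurve := by
  obtain ⟨n, hn⟩ := frey_a2_int P
  obtain ⟨m, hm⟩ := frey_a4_int P
  have hnQ : ((P.b : ℚ) ^ P.p - 1 - (P.a : ℚ) ^ P.p) = 4 * (n : ℚ) := by
    exact_mod_cast congrArg (Int.cast : ℤ → ℚ) hn
  have hmQ : (-((P.a : ℚ) ^ P.p) * ((P.b : ℚ) ^ P.p)) = 16 * (m : ℚ) := by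
    exact_mod_cast congrArg (Int.cast : ℤ → ℚ) hm
  ext
  · simp [freyCurveInt, freyCurve]
  · simp only [freyCurveInt, freyCurve, WeierstrassCurve.map_a₂, hn, hnQ]
    rw [Int.mul_ediv_cancel_left _ (by norm_num)]
    simp
  · simp [freyCurveInt, freyCurve]
  · simp only [freyCurveInt, freyCurve, WeierstrassCurve.map_a₄, hm, hmQ]
    rw [Int.mul_ediv_cancel_left _ (by norm_num)]
    simp
  · simp [freyCurveInt, freyCurve]

/-- **[GAL-0]** -/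
theorem freyCurveInt_disc (P : FreyPackage) :
    256 * P.freyCurveInt.Δ = (P.a ^ P.p * P.b ^ P.p * P.c ^ P.p) ^ 2 := by
  obtain ⟨n, hn⟩ := frey_a2_int P
  obtain ⟨m, hm⟩ := frey_a4_int P
  have h2 : P.freyCurveInt.a₂ = n := by
    simp only [freyCurveInt, hn]
    exact Int.mul_ediv_cancel_left _ (by norm_num)
  have h4 : P.freyCurveInt.a₄ = m := by
    simp only [freyCurveInt, hm]
    exact Int.mul_ediv_cancel_left _ (by norm_num)
  have h1 : P.freyCurveInt.a₁ = 1 := rfl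
  have h3 : P.freyCurveInt.a₃ = 0 := rfl
  have h6 : P.freyCurveInt.a₆ = 0 := rfl
  simp only [WeierstrassCurve.Δ, WeierstrassCurve.b₂, WeierstrassCurve.b₄, WeierstrassCurve.b₆,
    WeierstrassCurve.b₈, h1, h2, h3, h4, h6]
  rw [← P.hFLT]
  generalize P.a ^ P.p = α at *
  generalize P.b ^ P.p = β at *
  have hβ : β = 4 * n + 1 + α := by linarith
  subst hβ
  have : (256:ℤ) * (-(1 ^ 2 + 4 * n) ^ 2 * (1 ^ 2 * 0 + 4 * n * 0 - 1 * 0 * m + n * 0 ^ 2 - m ^ 2) - 8 * (2 * m + 1 * 0) ^ 3 - 27 * (0 ^ 2 + 4 * 0) ^ 2 + 9 * (1 ^ 2 + 4 * n) * (2 * m + 1 * 0) * (0 ^ 2 + 4 * 0)) = (16 * m) ^ 2 * ((1 + 4 * n) ^ 2 - 4 * (16 * m)) := by ring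
  rw [this, ← hm]
  ring

/-- **[GAL-0]** -/
theorem isGoodPrimeFor_frey (P : FreyPackage) {ℓ : ℕ} (hℓ : ℓ.Prime)
    (h : ¬ (ℓ : ℤ) ∣ P.a * P.b * P.c) : P.freyCurveInt.IsGoodPrimeFor ℓ := by
  intro hd
  have hpr : Prime (ℓ : ℤ) := Nat.prime_iff_prime_int.1 hℓ
  have h1 : (ℓ : ℤ) ∣ (P.a ^ P.p * P.b ^ P.p * P.c ^ P.p) ^ 2 := by
    rw [← freyCurveInt_disc]
    exact Dvd.dvd.mul_left hd _
  have h2 := hpr.dvd_of_dvd_pow h1
  rw [← mul_pow, ← mul_pow] at h2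
  exact h (hpr.dvd_of_dvd_pow h2)

/-- **[GAL-F]** -/
theorem frey_frobenius_relation (P : FreyPackage) {ℓ : ℕ} (hℓ : ℓ.Prime)
    (hgood : ¬ (ℓ : ℤ) ∣ P.a * P.b * P.c) (hpℓ : P.p ≠ ℓ)
    (A : ValuationSubring Kb) (hA : A.LiesOverPrime ℓ) (τ : Gl) (hτ : A.IsFrobeniusAt τ ℓ)
    (x : Tors P) :
    τ • τ • x - P.freyCurveInt.apOfModel ℓ • τ • x + (ℓ : ℤ) • x = 0 := by
  have hℓ2 : ℓ ≠ 2 := by
    rintro rfl
    exact hgood (by exact_mod_cast P.two_dvd_abc)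
  have hp2 : P.p ≠ 2 := by have := P.hp5; omega
  have key : ∀ (W : WeierstrassCurve ℚ) (hW : P.freyCurveInt.map (Int.castRingHom ℚ) = W)
      (Q : (W.toAffine⁄Kb).Point) (hQ : P.p • Q = 0),
      τ • τ • Q - P.freyCurveInt.apOfModel ℓ • τ • Q + (ℓ : ℤ) • Q = 0 := by
    intro W hW
    subst hW
    intro Q hQ
    exact HW.frobenius_relation P.freyCurveInt hℓ hℓ2 (isGoodPrimeFor_frey P hℓ hgood) P.pp hp2 hpℓ
      A hA τ hτ Q hQ
  apply Subtype.ext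
  have hx : P.p • (x : (EK P).Point) = 0 := by
    have h := x.2
    rw [Submodule.mem_torsionBy_iff] at h
    rw [← natCast_zsmul]
    exact h
  exact key P.freyCurve (freyCurveInt_map P) (x : (EK P).Point) hx

end Fermat.Agent.MAZ.End
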