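import Fermat.Agent.MAZ.End.ArchProd

/-!
# MAZ / End / [ARCH-DELTA]  `2⁻¹⁵ e^{-2πy} ≤ |Δ(τ)| ≤ 2¹³ e^{-2πy}` for `y = Im τ ≥ 1/2`

`ModularForm.discriminant_eq_q_prod : Δ z = 𝕢 1 z * ∏' n, (1 - eta_q n z) ^ 24`, `eta_q n z = 𝕢 1 z ^ (n + 1)` (abbrev),
`(ModularForm.multipliable_one_sub_pow _).tprod_pow 24`, `‖𝕢 1 z‖ = exp(-2π y)` (`Function.Periodic.norm_qParam`),
`exp(-2π y) ≤ exp(-π) ≤ 1/4` (`Real.add_one_le_exp`, `Real.pi_gt_three`).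
`exp(1/3)^24 = exp 8 = (exp 1)^8 ≤ 2.7182818286^8 ≤ 2^13` (`Real.exp_one_lt_d9`), `(2/3)^24 ≥ 2⁻¹⁵`.
-/

set_option autoImplicit false

open UpperHalfPlane
open scoped Real

namespace Fermat.Agent.MAZ.End

local notation "Δ" => ModularForm.discriminant

theorem norm_qParam_one (τ : ℍ) :
    ‖Function.Periodic.qParam 1 (τ : ℂ)‖ = Real.exp (-2 * π * τ.im) := by
  rw [Function.Periodic.norm_qParam]
  simp

theorem exp_neg_two_pi_le (τ : ℍ) (h : 1 / 2 ≤ τ.im) : Real.exp (-2 * π * τ.im) ≤ 1 / 4 := by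
  have h1 : -2 * π * τ.im ≤ -3 := by nlinarith [Real.pi_gt_three]
  have h2 : Real.exp (-2 * π * τ.im) ≤ Real.exp (-3) := Real.exp_le_exp.mpr h1
  have h3 : (4 : ℝ) ≤ Real.exp 3 := by
    have := Real.add_one_le_exp (3 : ℝ)
    linarith
  have h4 : Real.exp (-3) ≤ 1 / 4 := by
    rw [Real.exp_neg, one_div]
    exact inv_anti₀ (by norm_num) h3
  exact h2.trans h4

theorem norm_discriminant_eq (τ : ℍ) :
    ‖Δ τ‖ = Real.exp (-2 * π * τ.im) *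
      ‖∏' n : ℕ, (1 - (Function.Periodic.qParam 1 (τ : ℂ)) ^ (n + 1))‖ ^ 24 := by
  have hq1 : ‖Function.Periodic.qParam 1 (τ : ℂ)‖ < 1 := by
    rw [norm_qParam_one, Real.exp_lt_one_iff]
    have := τ.im_pos
    nlinarith [Real.pi_pos]
  rw [ModularForm.discriminant_eq_q_prod, norm_mul, norm_qParam_one,
    (ModularForm.multipliable_one_sub_pow hq1).tprod_pow 24, norm_pow]

theorem norm_discriminant_le (τ : ℍ) (h : 1 / 2 ≤ τ.im) :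
    ‖Δ τ‖ ≤ 2 ^ 13 * Real.exp (-2 * π * τ.im) := by
  have hq : ‖Function.Periodic.qParam 1 (τ : ℂ)‖ ≤ 1 / 4 := by
    rw [norm_qParam_one]
    exact exp_neg_two_pi_le τ h
  rw [norm_discriminant_eq, mul_comm]
  refine mul_le_mul_of_nonneg_right ?_ (Real.exp_pos _).le
  calc ‖∏' n : ℕ, (1 - (Function.Periodic.qParam 1 (τ : ℂ)) ^ (n + 1))‖ ^ 24
      ≤ Real.exp (1 / 3) ^ 24 := pow_le_pow_left₀ (norm_nonneg _) (norm_tprod_one_sub_le hq) 24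
    _ = Real.exp 1 ^ 8 := by
        rw [← Real.exp_nat_mul, ← Real.exp_nat_mul]
        norm_num
    _ ≤ (2.7182818286 : ℝ) ^ 8 :=
        pow_le_pow_left₀ (Real.exp_pos _).le Real.exp_one_lt_d9.le 8
    _ ≤ 2 ^ 13 := by norm_num

theorem le_norm_discriminant (τ : ℍ) (h : 1 / 2 ≤ τ.im) :
    (2 : ℝ)⁻¹ ^ 15 * Real.exp (-2 * π * τ.im) ≤ ‖Δ τ‖ := by
  have hq : ‖Function.Periodic.qParam 1 (τ : ℂ)‖ ≤ 1 / 4 := by
    rw [norm_qParam_one]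
    exact exp_neg_two_pi_le τ h
  rw [norm_discriminant_eq, mul_comm (Real.exp _)]
  refine mul_le_mul_of_nonneg_right ?_ (Real.exp_pos _).le
  calc (2 : ℝ)⁻¹ ^ 15 ≤ (2 / 3 : ℝ) ^ 24 := by norm_num
    _ ≤ ‖∏' n : ℕ, (1 - (Function.Periodic.qParam 1 (τ : ℂ)) ^ (n + 1))‖ ^ 24 :=
        pow_le_pow_left₀ (by norm_num) (le_norm_tprod_one_sub hq) 24

end Fermat.Agent.MAZ.End
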