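import Mathlib

/-!
# MAZ / End / [ARCH-E4]  `|E₄(τ)| ≥ 1/2` for `Im τ ≥ 2`     (Mathlib only)

`EisensteinSeries.q_expansion_bernoulli (k := 4)`: `E₄ z = 1 - (2*4 / bernoulli 4) * ∑' n : ℕ+, σ 3 n * cexp (2πi z) ^ (n : ℤ)`,
`bernoulli 4 = -1/30` (`bernoulli_four`?  else `by simp [bernoulli, bernoulli'_four]`), so the factor is `+240`.
`x := ‖cexp (2πi z)‖ = exp(-2π y) ≤ exp(-12) ≤ 2⁻¹²` (`y ≥ 2`, `π > 3`, `exp 1 ≥ 2`).
`σ 3 n ≤ n^4 ≤ 16^(n-1)` (`ArithmeticFunction.sigma_le_pow_succ`; induction), hence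
`‖∑' ..‖ ≤ ∑_{n ≥ 1} 16^(n-1) x^n = x / (1 - 16 x) ≤ 2⁻¹¹` and `240 * 2⁻¹¹ ≤ 1/2`.
(`norm_tsum_le_tsum_norm`, `Summable.tsum_le_tsum`, `tsum_geometric_of_lt_one`; reindex `ℕ+` by `n + 1`: `tsum_pnat_eq_tsum_succ`.)
-/

set_option autoImplicit false

open UpperHalfPlane ModularForm EisensteinSeries

namespace Fermat.Agent.MAZ.End

theorem succ_pow_four_le (n : ℕ) : (n + 1) ^ 4 ≤ 16 ^ n := by
  induction n with
  | zero => simp
  | succ n ih =>
    calc (n + 1 + 1) ^ 4 ≤ (2 * (n + 1)) ^ 4 := Nat.pow_le_pow_left (by omega) 4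
      _ = 16 * (n + 1) ^ 4 := by ring
      _ ≤ 16 * 16 ^ n := Nat.mul_le_mul_left 16 ih
      _ = 16 ^ (n + 1) := by ring

open Complex Real ArithmeticFunction in
theorem E4_sub_one (τ : ℍ) :
    E₄ τ - 1 = 240 * ∑' n : ℕ, (sigma 3 (n + 1) : ℂ) * cexp (2 * π * Complex.I * τ) ^ (n + 1) := by
  have h := EisensteinSeries.q_expansion_bernoulli (k := 4) (by norm_num) (by decide) τ
  simp_rw [zpow_natCast] at h
  rw [tsum_pnat_eq_tsum_succ (f := fun n ↦ (sigma (4 - 1) n : ℂ) * cexp (2 * π * Complex.I * τ) ^ n)] at h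
  have hb : bernoulli 4 = -1 / 30 := by
    rw [bernoulli_eq_bernoulli'_of_ne_one (by norm_num), bernoulli'_four]
  rw [h, hb]
  push_cast
  ring

open Complex Real ArithmeticFunction in
theorem half_le_norm_E4 (τ : ℍ) (h : 2 ≤ τ.im) : 1 / 2 ≤ ‖E₄ τ‖ := by
  set w : ℂ := cexp (2 * π * Complex.I * τ) with hw
  set x : ℝ := ‖w‖ with hx
  have hx0 : 0 ≤ x := norm_nonneg _
  have hxe : x = Real.exp (-2 * π * τ.im) := by
    rw [hx, hw, Complex.norm_exp]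
    congr 1
    simp
  have hx1 : x ≤ 1 / 4096 := by
    have h1 : -2 * π * τ.im ≤ -12 := by nlinarith [Real.pi_gt_three]
    have h2 : x ≤ Real.exp (-12) := hxe ▸ Real.exp_le_exp.mpr h1
    have h3 : (4096 : ℝ) ≤ Real.exp 12 := by
      have e1 : (2 : ℝ) ≤ Real.exp 1 := by
        have := Real.add_one_le_exp (1 : ℝ)
        linarith
      have e2 : Real.exp 12 = Real.exp 1 ^ 12 := by
        rw [← Real.exp_nat_mul]
        norm_num
      rw [e2]
      calc (4096 : ℝ) = 2 ^ 12 := by norm_num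
        _ ≤ Real.exp 1 ^ 12 := pow_le_pow_left₀ (by norm_num) e1 12
    have h4 : Real.exp (-12) ≤ 1 / 4096 := by
      rw [Real.exp_neg, one_div]
      exact inv_anti₀ (by norm_num) h3
    exact h2.trans h4
  have h16 : 16 * x < 1 := by linarith
  have hg : Summable fun n : ℕ => x * (16 * x) ^ n :=
    (summable_geometric_of_lt_one (by positivity) h16).mul_left x
  have hb : ∀ n : ℕ, ‖(sigma 3 (n + 1) : ℂ) * w ^ (n + 1)‖ ≤ x * (16 * x) ^ n := by
    intro n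
    rw [norm_mul, Complex.norm_natCast, norm_pow]
    have h1 : (sigma 3 (n + 1) : ℝ) ≤ 16 ^ n := by
      have := (ArithmeticFunction.sigma_le_pow_succ 3 (n + 1)).trans (succ_pow_four_le n)
      exact_mod_cast this
    calc (sigma 3 (n + 1) : ℝ) * x ^ (n + 1) ≤ 16 ^ n * x ^ (n + 1) := by gcongr
      _ = x * (16 * x) ^ n := by ring
  have hS : ‖∑' n : ℕ, (sigma 3 (n + 1) : ℂ) * w ^ (n + 1)‖ ≤ x * (1 - 16 * x)⁻¹ := by
    have h1 := tsum_of_norm_bounded hg.hasSum hb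
    rwa [tsum_mul_left, tsum_geometric_of_lt_one (by positivity) h16] at h1
  have hS2 : x * (1 - 16 * x)⁻¹ ≤ 1 / 480 := by
    have hp : 0 < 1 - 16 * x := by linarith
    rw [← div_eq_mul_inv, div_le_iff₀ hp]
    linarith
  have h1 : ‖E₄ τ - 1‖ ≤ 1 / 2 := by
    rw [E4_sub_one, norm_mul]
    have : ‖(240 : ℂ)‖ = 240 := by simp
    rw [this]
    have := hS.trans hS2
    linarith
  have h2 : ‖(1 : ℂ)‖ - ‖E₄ τ‖ ≤ ‖1 - E₄ τ‖ := norm_sub_norm_le _ _
  rw [norm_one, norm_sub_rev] at h2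
  linarith

end Fermat.Agent.MAZ.End
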