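import Fermat.Agent.MAZ.End.ArchDelta
import Fermat.Agent.MAZ.End.ArchE4
import Fermat.Agent.S24.JAnalytic
import Fermat.Agent.Common.JPoly

/-!
# MAZ / End / [ARCH-PHI]  the invariant `φ(τ) = (Im τ)⁶ |Δ(τ)|` and the lower bound of `|Δ(τ)/Δ(Nτ)|`

* `phi_smul`: `Common.JPoly.discriminant_smul`, `UpperHalfPlane.im_smul_eq_div_normSq` (`ModularGroup.im_smul_eq_div_normSq`),
  `normSq (denom g τ) = ‖denom g τ‖²`.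
* `phi_le`: `ModularGroup.exists_smul_mem_fd`, `ModularGroup.three_le_four_mul_im_sq_of_mem_fd` (so `y ≥ 1/2`),
  `norm_discriminant_le`, `y⁶ e^{-2πy} ≤ 720/(2π)⁶ ≤ 1` (`Real.pow_div_factorial_le_exp (2πy) _ 6`).
* `le_phi`: move `τ` to `𝒟` (`S24.jfun_smul`).  `y ≥ 2`: `‖Δ‖ ‖j‖ = ‖E₄‖³ ≥ 1/8` (`S24.jfun_mul_discriminant`,
  `half_le_norm_E4`), `φ ≥ 2⁶/8 ‖j‖⁻¹`.  `1/2 ≤ y < 2`: `φ ≥ 2⁻⁶ 2⁻¹⁵ e^{-4π}`, `e^{-4π} ≥ e^{-13} ≥ 3⁻¹³ ≥ 2⁻²¹`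
  (`Real.pi_lt_d2`, `Real.exp_one_lt_d9`).
* `arch_lower`: `φ(Nτ) = (N y)⁶ ‖Δ(Nτ)‖ ≤ 2¹³`, so `‖Δ τ‖/‖Δ(Nτ)‖ ≥ N⁶ φ(τ) / 2¹³ ≥ φ(τ)/2¹³`.
-/

set_option autoImplicit false

open UpperHalfPlane ModularForm EisensteinSeries
open scoped MatrixGroups Real

namespace Fermat.Agent.MAZ.End

open Fermat.Agent.S24

local notation "Δ" => ModularForm.discriminant

/-- `φ(τ) = (Im τ)⁶ |Δ(τ)|`. -/
noncomputable def phi (τ : ℍ) : ℝ := τ.im ^ 6 * ‖Δ τ‖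

theorem phi_smul (g : SL(2, ℤ)) (τ : ℍ) : phi (g • τ) = phi τ := by
  have hd : denom g τ ≠ 0 := denom_ne_zero g τ
  have hn : 0 < ‖denom g τ‖ := norm_pos_iff.mpr hd
  rw [phi, phi, Common.JPoly.discriminant_smul, ModularGroup.im_smul_eq_div_normSq,
    Complex.normSq_eq_norm_sq, norm_mul, norm_zpow]
  have : ‖denom g τ‖ ^ (12 : ℤ) = ‖denom g τ‖ ^ 12 := by norm_cast
  rw [this]
  field_simp

theorem phi_nonneg (τ : ℍ) : 0 ≤ phi τ := by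
  have := τ.im_pos
  unfold phi
  positivity

theorem half_le_im_of_mem_fd {τ : ℍ} (h : τ ∈ ModularGroup.fd) : 1 / 2 ≤ τ.im := by
  have h1 := ModularGroup.three_le_four_mul_im_sq_of_mem_fd h
  have h2 := τ.im_pos
  nlinarith

theorem phi_le (τ : ℍ) : phi τ ≤ 2 ^ 13 := by
  obtain ⟨g, hg⟩ := ModularGroup.exists_smul_mem_fd τ
  rw [← phi_smul g τ]
  set σ := g • τ
  have hy := half_le_im_of_mem_fd hg
  have hy0 : 0 < σ.im := σ.im_pos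
  have h1 := norm_discriminant_le σ hy
  have h2 : σ.im ^ 6 * Real.exp (-2 * π * σ.im) ≤ 1 := by
    have h3 := Real.pow_div_factorial_le_exp (x := 2 * π * σ.im) (by positivity) 6
    have h4 : Real.exp (-2 * π * σ.im) = (Real.exp (2 * π * σ.im))⁻¹ := by
      rw [← Real.exp_neg]
      congr 1
      ring
    rw [h4, ← div_eq_mul_inv, div_le_one (Real.exp_pos _)]
    refine le_trans ?_ h3
    have h5 : (Nat.factorial 6 : ℝ) = 720 := by norm_num [Nat.factorial]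
    rw [h5, le_div_iff₀ (by norm_num), mul_pow, mul_pow]
    have h6 : (3 : ℝ) ^ 6 ≤ π ^ 6 := pow_le_pow_left₀ (by norm_num) Real.pi_gt_three.le 6
    have h7 : 0 < σ.im ^ 6 := by positivity
    nlinarith
  calc phi σ = σ.im ^ 6 * ‖Δ σ‖ := rfl
    _ ≤ σ.im ^ 6 * (2 ^ 13 * Real.exp (-2 * π * σ.im)) := by gcongr
    _ = 2 ^ 13 * (σ.im ^ 6 * Real.exp (-2 * π * σ.im)) := by ring
    _ ≤ 2 ^ 13 * 1 := by gcongr
    _ = 2 ^ 13 := by ring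

theorem le_phi (τ : ℍ) : (2 : ℝ)⁻¹ ^ 42 * min 1 ‖jfun τ‖⁻¹ ≤ phi τ := by
  obtain ⟨g, hg⟩ := ModularGroup.exists_smul_mem_fd τ
  rw [← phi_smul g τ, ← jfun_smul g τ]
  set σ := g • τ
  have hy := half_le_im_of_mem_fd hg
  have hy0 : 0 < σ.im := σ.im_pos
  by_cases h2 : 2 ≤ σ.im
  · have hE := half_le_norm_E4 σ h2
    have hj := congrArg norm (jfun_mul_discriminant σ)
    rw [norm_mul, norm_pow] at hj
    have hE3 : (1 / 8 : ℝ) ≤ ‖E₄ σ‖ ^ 3 := by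
      calc (1 / 8 : ℝ) = (1 / 2) ^ 3 := by norm_num
        _ ≤ ‖E₄ σ‖ ^ 3 := pow_le_pow_left₀ (by norm_num) hE 3
    have hjpos : 0 < ‖jfun σ‖ := by
      by_contra hneg
      have : ‖jfun σ‖ = 0 := le_antisymm (not_lt.mp hneg) (norm_nonneg _)
      rw [this, zero_mul] at hj
      linarith
    have hD : (1 / 8 : ℝ) * ‖jfun σ‖⁻¹ ≤ ‖Δ σ‖ := by
      rw [← div_eq_mul_inv, div_le_iff₀ hjpos, mul_comm, hj]
      exact hE3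
    have hinv : 0 < ‖jfun σ‖⁻¹ := inv_pos.mpr hjpos
    have h64 : (64 : ℝ) ≤ σ.im ^ 6 := by
      calc (64 : ℝ) = 2 ^ 6 := by norm_num
        _ ≤ σ.im ^ 6 := pow_le_pow_left₀ (by norm_num) h2 6
    calc (2 : ℝ)⁻¹ ^ 42 * min 1 ‖jfun σ‖⁻¹ ≤ 1 * ‖jfun σ‖⁻¹ := by
          gcongr
          · norm_num
          · exact min_le_right _ _
      _ ≤ 64 * ((1 / 8 : ℝ) * ‖jfun σ‖⁻¹) := by linarith
      _ ≤ σ.im ^ 6 * ‖Δ σ‖ := by gcongr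
  · rw [not_le] at h2
    have h1 := le_norm_discriminant σ hy
    have h3 : (2 : ℝ)⁻¹ ^ 21 ≤ Real.exp (-2 * π * σ.im) := by
      have e1 : (-13 : ℝ) ≤ -2 * π * σ.im := by nlinarith [Real.pi_lt_d2, Real.pi_pos]
      have e2 : Real.exp (-13) ≤ Real.exp (-2 * π * σ.im) := Real.exp_le_exp.mpr e1
      refine le_trans ?_ e2
      have e3 : Real.exp 13 ≤ 2 ^ 21 := by
        have : Real.exp 13 = Real.exp 1 ^ 13 := by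
          rw [← Real.exp_nat_mul]
          norm_num
        rw [this]
        calc Real.exp 1 ^ 13 ≤ (3 : ℝ) ^ 13 :=
              pow_le_pow_left₀ (Real.exp_pos _).le
                (Real.exp_one_lt_d9.le.trans (by norm_num)) 13
          _ ≤ 2 ^ 21 := by norm_num
      rw [Real.exp_neg, inv_pow]
      exact inv_anti₀ (Real.exp_pos _) e3
    have h6 : (2 : ℝ)⁻¹ ^ 6 ≤ σ.im ^ 6 :=
      pow_le_pow_left₀ (by norm_num) (by linarith) 6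
    calc (2 : ℝ)⁻¹ ^ 42 * min 1 ‖jfun σ‖⁻¹ ≤ (2 : ℝ)⁻¹ ^ 42 * 1 := by
          gcongr
          exact min_le_left _ _
      _ = (2 : ℝ)⁻¹ ^ 6 * ((2 : ℝ)⁻¹ ^ 15 * (2 : ℝ)⁻¹ ^ 21) := by ring
      _ ≤ σ.im ^ 6 * ((2 : ℝ)⁻¹ ^ 15 * Real.exp (-2 * π * σ.im)) := by gcongr
      _ ≤ σ.im ^ 6 * ‖Δ σ‖ := by gcongr

/-- **[ARCH]** -/
theorem arch_lower (N : ℕ) [NeZero N] (τ : ℍ) :
    (2 : ℝ)⁻¹ ^ 55 * min 1 ‖jfun τ‖⁻¹ ≤ ‖Δ τ / Δ (scal N τ)‖ := by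
  have hy0 : 0 < τ.im := τ.im_pos
  have hN : (1 : ℝ) ≤ N := by exact_mod_cast Nat.one_le_iff_ne_zero.mpr (NeZero.ne N)
  have him : (scal N τ).im = N * τ.im := by
    have : (scal N τ).im = ((scal N τ : ℍ) : ℂ).im := rfl
    rw [this, coe_scal]
    simp
  have h1 := phi_le (scal N τ)
  rw [phi, him] at h1
  have h2 := le_phi τ
  rw [phi] at h2
  have hD : 0 < ‖Δ (scal N τ)‖ := norm_pos_iff.mpr (ModularForm.discriminant_ne_zero _)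
  rw [norm_div, le_div_iff₀ hD]
  have hy6 : 0 < τ.im ^ 6 := by positivity
  have hN6 : (1 : ℝ) ≤ (N : ℝ) ^ 6 := one_le_pow₀ hN
  have hm : 0 ≤ min 1 ‖jfun τ‖⁻¹ := le_min zero_le_one (inv_nonneg.mpr (norm_nonneg _))
  -- `y^6 ‖Δ(Nτ)‖ ≤ N^6 y^6 ‖Δ(Nτ)‖ ≤ 2^13`
  have h3 : τ.im ^ 6 * ‖Δ (scal N τ)‖ ≤ 2 ^ 13 := by
    refine le_trans ?_ h1
    rw [mul_pow]
    have : 0 ≤ τ.im ^ 6 * ‖Δ (scal N τ)‖ := by positivity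
    nlinarith
  have h4 : τ.im ^ 6 * ((2 : ℝ)⁻¹ ^ 55 * min 1 ‖jfun τ‖⁻¹ * ‖Δ (scal N τ)‖) ≤ τ.im ^ 6 * ‖Δ τ‖ := by
    calc τ.im ^ 6 * ((2 : ℝ)⁻¹ ^ 55 * min 1 ‖jfun τ‖⁻¹ * ‖Δ (scal N τ)‖)
        = ((2 : ℝ)⁻¹ ^ 55 * min 1 ‖jfun τ‖⁻¹) * (τ.im ^ 6 * ‖Δ (scal N τ)‖) := by ring
      _ ≤ ((2 : ℝ)⁻¹ ^ 55 * min 1 ‖jfun τ‖⁻¹) * 2 ^ 13 := by gcongr
      _ = (2 : ℝ)⁻¹ ^ 42 * min 1 ‖jfun τ‖⁻¹ := by
          have : (2 : ℝ)⁻¹ ^ 55 * 2 ^ 13 = (2 : ℝ)⁻¹ ^ 42 := by norm_num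
          rw [← this]
          ring
      _ ≤ τ.im ^ 6 * ‖Δ τ‖ := h2
  exact le_of_mul_le_mul_left h4 hy6

end Fermat.Agent.MAZ.End
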