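import Mathlib

/-!
# MAZ / End / [ARCH-PROD]  explicit bounds for `∏ (1 - q^{n+1})`, `|q| ≤ 1/4`     (Mathlib only)

`ModularForm.multipliable_one_sub_pow` (`‖q‖ < 1`) gives `Multipliable`; `Multipliable.hasProd`, `HasProd.norm` (or
`Multipliable.norm_tprod`) reduce to the partial products `∏_{n<M} ‖1 - q^{n+1}‖`, then `le_of_tendsto` / `ge_of_tendsto`.
With `x = ‖q‖ ≤ 1/4`:  `1 - x^{n+1} ≤ ‖1 - q^{n+1}‖ ≤ 1 + x^{n+1} ≤ exp(x^{n+1})`,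
`∑_{n<M} x^{n+1} ≤ x/(1-x) ≤ 1/3`;  upper bound: `∏ exp = exp ∑` (`Real.exp_sum`);
lower bound: `∏_{n<M} (1 - a_n) ≥ 1 - ∑_{n<M} a_n` for `0 ≤ a_n ≤ 1` (induction, or `Finset.one_sub_sum_le_prod_one_sub`
/ `Finset.prod_one_sub_ge` if present).
-/

set_option autoImplicit false

namespace Fermat.Agent.MAZ.End

theorem sum_pow_succ_le_third {x : ℝ} (h0 : 0 ≤ x) (hx : x ≤ 1 / 4) (M : ℕ) :
    ∑ n ∈ Finset.range M, x ^ (n + 1) ≤ 1 / 3 := by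
  have h1 : x < 1 := by linarith
  have hs : Summable fun n : ℕ => x ^ (n + 1) :=
    (summable_nat_add_iff 1).mpr (summable_geometric_of_lt_one h0 h1)
  have h2 : ∑ n ∈ Finset.range M, x ^ (n + 1) ≤ ∑' n : ℕ, x ^ (n + 1) :=
    hs.sum_le_tsum _ (fun n _ => by positivity)
  have h3 : ∑' n : ℕ, x ^ (n + 1) = x * (1 - x)⁻¹ := by
    simp_rw [pow_succ']
    rw [tsum_mul_left, tsum_geometric_of_lt_one h0 h1]
  rw [h3] at h2
  refine h2.trans ?_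
  have h4 : 0 < 1 - x := by linarith
  rw [← div_eq_mul_inv, div_le_iff₀ h4]
  linarith

theorem one_sub_sum_le_prod_aux (a : ℕ → ℝ) (h0 : ∀ n, 0 ≤ a n) (h1 : ∀ n, a n ≤ 1) (M : ℕ) :
    1 - ∑ n ∈ Finset.range M, a n ≤ ∏ n ∈ Finset.range M, (1 - a n) := by
  induction M with
  | zero => simp
  | succ M ih =>
    rw [Finset.sum_range_succ, Finset.prod_range_succ]
    have hP0 : 0 ≤ ∏ n ∈ Finset.range M, (1 - a n) :=
      Finset.prod_nonneg fun n _ => sub_nonneg.mpr (h1 n)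
    have hP1 : ∏ n ∈ Finset.range M, (1 - a n) ≤ 1 :=
      Finset.prod_le_one (fun n _ => sub_nonneg.mpr (h1 n)) (fun n _ => by linarith [h0 n])
    nlinarith [h0 M, h1 M]

theorem norm_tprod_one_sub_le {q : ℂ} (hq : ‖q‖ ≤ 1 / 4) :
    ‖∏' n : ℕ, (1 - q ^ (n + 1))‖ ≤ Real.exp (1 / 3) := by
  have hq1 : ‖q‖ < 1 := by linarith
  have hm := ModularForm.multipliable_one_sub_pow hq1
  have ht := hm.hasProd.norm.tendsto_prod_nat
  refine le_of_tendsto' ht fun M => ?_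
  calc ∏ n ∈ Finset.range M, ‖1 - q ^ (n + 1)‖
      ≤ ∏ n ∈ Finset.range M, Real.exp (‖q‖ ^ (n + 1)) := by
        refine Finset.prod_le_prod (fun n _ => norm_nonneg _) fun n _ => ?_
        calc ‖1 - q ^ (n + 1)‖ ≤ ‖(1 : ℂ)‖ + ‖q ^ (n + 1)‖ := norm_sub_le _ _
          _ = ‖q‖ ^ (n + 1) + 1 := by rw [norm_one, norm_pow, add_comm]
          _ ≤ Real.exp (‖q‖ ^ (n + 1)) := Real.add_one_le_exp _
    _ = Real.exp (∑ n ∈ Finset.range M, ‖q‖ ^ (n + 1)) := (Real.exp_sum _ _).symm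
    _ ≤ Real.exp (1 / 3) := Real.exp_le_exp.mpr (sum_pow_succ_le_third (norm_nonneg _) hq M)

theorem le_norm_tprod_one_sub {q : ℂ} (hq : ‖q‖ ≤ 1 / 4) :
    2 / 3 ≤ ‖∏' n : ℕ, (1 - q ^ (n + 1))‖ := by
  have hq1 : ‖q‖ < 1 := by linarith
  have hm := ModularForm.multipliable_one_sub_pow hq1
  have ht := hm.hasProd.norm.tendsto_prod_nat
  refine ge_of_tendsto' ht fun M => ?_
  have hle : ∀ n : ℕ, ‖q‖ ^ (n + 1) ≤ 1 := fun n => pow_le_one₀ (norm_nonneg _) hq1.le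
  calc (2 / 3 : ℝ) ≤ 1 - ∑ n ∈ Finset.range M, ‖q‖ ^ (n + 1) := by
        linarith [sum_pow_succ_le_third (norm_nonneg q) hq M]
    _ ≤ ∏ n ∈ Finset.range M, (1 - ‖q‖ ^ (n + 1)) :=
        one_sub_sum_le_prod_aux _ (fun n => by positivity) hle M
    _ ≤ ∏ n ∈ Finset.range M, ‖1 - q ^ (n + 1)‖ := by
        refine Finset.prod_le_prod (fun n _ => sub_nonneg.mpr (hle n)) fun n _ => ?_
        calc 1 - ‖q‖ ^ (n + 1) = ‖(1 : ℂ)‖ - ‖q ^ (n + 1)‖ := by rw [norm_one, norm_pow]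
          _ ≤ ‖1 - q ^ (n + 1)‖ := norm_sub_norm_le _ _

end Fermat.Agent.MAZ.End
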