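import Fermat.Agent.S13.WPA
import Fermat.Agent.S13.WPD
import Fermat.Agent.S05.Main

/-!
# MAZ / End / [FREY-INV]  invariants and shift data of the Frey curve

`α = a^p`, `β = b^p`, `γ = c^p = α + β`.  `b₂ = β - α`, `b₄ = -αβ/8`, `b₆ = 0` (`S13.EK_b₂` .. or as in `S13.frey_loc`),
`c₄ = α² + αβ + β²`, `c₆ = -(β - α)(2β + α)(β + 2α)/2`, `Δ = (αβγ)²/256`.
* `c₄ ≠ 0`: `4 c₄ = (2α + β)² + 3β² > 0`.  `c₆ ≠ 0`: `α` odd (`P.ha4`), `32 ∣ β` (`S13.frey_b_pow`).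
* `frey_shift` (copy the three `ShiftData` of `S13.frey_loc`):
  `ℓ ∣ a` or `ℓ ∣ b` (this includes `ℓ = 2`):  `x0 = 0`, `c = -αβ/16` (`= -2 freyT`, `S13.freyT_spec`), `b' = β - α`;
  `ℓ ∣ c` (then `ℓ` is odd, `ℓ ∤ ab`):  `x0 = α/4`, `c = αγ/16`, `b' = 2α + β`.
  Valuations: `S05.valuation_intCast_eq_one`, `S05.valuation_intCast_lt_one`; coprimality `P.hgcdab`, `P.hgcdac`, `P.hgcdbc`.
-/

set_option autoImplicit false

namespace Fermat.Agent.MAZ.End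

open WeierstrassCurve WeierstrassCurve.Affine WeierstrassCurve.Affine.Point
open FreyPackage
open Fermat.Agent.S05 Fermat.Agent.S13

/-- the discriminant of the Frey curve. -/
def freyD (P : FreyPackage) : ℚ := ((P.a ^ P.p * P.b ^ P.p * P.c ^ P.p : ℤ) : ℚ) ^ 2 / 256

/-- `c₄` of the Frey curve. -/
def freyC4 (P : FreyPackage) : ℚ :=
  (((P.a ^ P.p) ^ 2 + P.a ^ P.p * P.b ^ P.p + (P.b ^ P.p) ^ 2 : ℤ) : ℚ)

theorem EK_b₂_eq' (P : FreyPackage) : (EK P).b₂ = (P.b : Kb) ^ P.p - (P.a : Kb) ^ P.p := by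
  simp only [WeierstrassCurve.b₂, EK_a₁, EK_a₂]
  ring

theorem EK_b₄_eq' (P : FreyPackage) : (EK P).b₄ = -(P.a : Kb) ^ P.p * (P.b : Kb) ^ P.p / 8 := by
  simp only [WeierstrassCurve.b₄, EK_a₁, EK_a₃, EK_a₄]
  ring

theorem EK_b₆_eq' (P : FreyPackage) : (EK P).b₆ = 0 := by
  simp only [WeierstrassCurve.b₆, EK_a₃, EK_a₆]
  ring

theorem frey_cast_c (P : FreyPackage) : (P.c : Kb) ^ P.p = (P.a : Kb) ^ P.p + (P.b : Kb) ^ P.p := by
  exact_mod_cast congrArg (Int.cast : ℤ → Kb) P.hFLT.symm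

theorem EK_Δ_eq (P : FreyPackage) : (EK P).Δ = ((freyD P : ℚ) : Kb) := by
  have hc := frey_cast_c P
  simp only [WeierstrassCurve.Δ, WeierstrassCurve.b₂, WeierstrassCurve.b₄, WeierstrassCurve.b₆,
    WeierstrassCurve.b₈, EK_a₁, EK_a₂, EK_a₃, EK_a₄, EK_a₆, freyD]
  push_cast
  rw [hc]
  field_simp
  ring

theorem EK_c₄_eq (P : FreyPackage) : (EK P).c₄ = ((freyC4 P : ℚ) : Kb) := by
  simp only [WeierstrassCurve.c₄, EK_b₂_eq', EK_b₄_eq', freyC4]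
  push_cast
  ring

theorem freyD_pos (P : FreyPackage) : 0 < freyD P := by
  have h0 : P.a ^ P.p * P.b ^ P.p * P.c ^ P.p ≠ 0 :=
    mul_ne_zero (mul_ne_zero (pow_ne_zero _ P.ha0) (pow_ne_zero _ P.hb0)) (pow_ne_zero _ P.hc0)
  have h1 : ((P.a ^ P.p * P.b ^ P.p * P.c ^ P.p : ℤ) : ℚ) ≠ 0 := Int.cast_ne_zero.2 h0
  unfold freyD
  positivity

theorem freyC4_pos (P : FreyPackage) : 0 < freyC4 P := by
  have hA : P.a ^ P.p ≠ 0 := pow_ne_zero _ P.ha0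
  have h1 : 0 < (P.a ^ P.p) ^ 2 + P.a ^ P.p * P.b ^ P.p + (P.b ^ P.p) ^ 2 := by
    have h2 : 0 < (P.a ^ P.p) ^ 2 := by positivity
    nlinarith [sq_nonneg (P.a ^ P.p + 2 * P.b ^ P.p)]
  unfold freyC4
  exact_mod_cast h1

/-- `a ^ p` is odd. -/
theorem frey_a_pow_odd (P : FreyPackage) : ∃ k : ℤ, P.a ^ P.p = 2 * k + 1 := by
  have h4 : (4 : ℤ) ∣ P.a - 3 := by
    refine (ZMod.intCast_zmod_eq_zero_iff_dvd (P.a - 3) 4).1 ?_
    push_cast
    rw [P.ha4]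
    decide
  obtain ⟨k, hk⟩ := h4
  have hodd : Odd P.a := ⟨2 * k + 1, by linarith⟩
  exact hodd.pow

theorem EK_c₆_ne_zero (P : FreyPackage) : (EK P).c₆ ≠ 0 := by
  obtain ⟨k, hk⟩ := frey_a_pow_odd P
  obtain ⟨m, hm⟩ := frey_b_pow P
  have h1 : P.b ^ P.p - P.a ^ P.p ≠ 0 := by omega
  have h2 : 2 * P.b ^ P.p + P.a ^ P.p ≠ 0 := by omega
  have h3 : P.b ^ P.p + 2 * P.a ^ P.p ≠ 0 := by omega
  have e : (EK P).c₆ = -(((P.b ^ P.p - P.a ^ P.p) * (2 * P.b ^ P.p + P.a ^ P.p) *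
      (P.b ^ P.p + 2 * P.a ^ P.p) : ℤ) : Kb) / 2 := by
    simp only [WeierstrassCurve.c₆, EK_b₂_eq', EK_b₄_eq', EK_b₆_eq']
    push_cast
    ring
  rw [e]
  exact div_ne_zero (neg_ne_zero.2 (Int.cast_ne_zero.2 (mul_ne_zero (mul_ne_zero h1 h2) h3)))
    two_ne_zero

/-- good primes: the discriminant is a unit. -/
theorem val_EK_Δ_eq_one (P : FreyPackage) {ℓ : ℕ} (hℓ : ℓ.Prime)
    (h : ¬ (ℓ : ℤ) ∣ P.a * P.b * P.c) (A : ValuationSubring Kb) (hA : A.LiesOverPrime ℓ) :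
    A.valuation (EK P).Δ = 1 := by
  have hqA : A.valuation ((ℓ : ℕ) : Kb) < 1 := hA
  have hℓi : Prime (ℓ : ℤ) := Nat.prime_iff_prime_int.1 hℓ
  have hb2 : (2 : ℤ) ∣ P.b := (ZMod.intCast_zmod_eq_zero_iff_dvd P.b 2).1 P.hb2
  have h2 : ¬ (ℓ : ℤ) ∣ 2 := by
    intro h2
    exact h ((h2.trans hb2).mul_left P.a |>.mul_right P.c)
  have h256 : A.valuation (256 : Kb) = 1 := by
    have : ¬ (ℓ : ℤ) ∣ (2 : ℤ) ^ 8 := fun h8 => h2 (hℓi.dvd_of_dvd_pow h8)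
    have h3 := valuation_intCast_eq_one A hℓ hqA this
    norm_num at h3
    exact h3
  have hnd : ¬ (ℓ : ℤ) ∣ P.a ^ P.p * P.b ^ P.p * P.c ^ P.p := by
    intro h1
    apply h
    rw [← mul_pow, ← mul_pow] at h1
    exact hℓi.dvd_of_dvd_pow h1
  rw [EK_Δ_eq, freyD]
  push_cast
  have h4 := valuation_intCast_eq_one A hℓ hqA hnd
  push_cast at h4
  rw [map_div₀, h256, div_one, map_pow, h4, one_pow]

/-- multiplicative primes: shift data with rational parameters. -/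
theorem frey_shift (P : FreyPackage) {ℓ : ℕ} (hℓ : ℓ.Prime) (h : (ℓ : ℤ) ∣ P.a * P.b * P.c)
    (A : ValuationSubring Kb) (hA : A.LiesOverPrime ℓ) :
    ∃ x0 c b' : ℚ, ShiftData (EK P) (x0 : Kb) (c : Kb) (b' : Kb) ∧ (x0 : Kb) ∈ A ∧
      A.valuation (b' : Kb) = 1 ∧ (c : Kb) ≠ 0 ∧ A.valuation (c : Kb) < 1 := by
  have hqA : A.valuation ((ℓ : ℕ) : Kb) < 1 := hA
  have hℓi : Prime (ℓ : ℤ) := Nat.prime_iff_prime_int.1 hℓ
  have hb2 : (2 : ℤ) ∣ P.b := (ZMod.intCast_zmod_eq_zero_iff_dvd P.b 2).1 P.hb2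
  have hnu : ¬ IsUnit (ℓ : ℤ) := hℓi.not_isUnit
  have hab : ¬ ((ℓ : ℤ) ∣ P.a ∧ (ℓ : ℤ) ∣ P.b) := by
    rintro ⟨h1, h2⟩
    have h3 : (ℓ : ℤ) ∣ gcd P.a P.b := dvd_gcd h1 h2
    rw [P.hgcdab] at h3
    exact hnu (isUnit_of_dvd_one h3)
  have hpow : ∀ {n : ℤ}, (ℓ : ℤ) ∣ n ^ P.p ↔ (ℓ : ℤ) ∣ n := fun {n} =>
    ⟨hℓi.dvd_of_dvd_pow, fun h => dvd_pow h P.hp0⟩
  by_cases hcase : (ℓ : ℤ) ∣ P.a ∨ (ℓ : ℤ) ∣ P.b
  · -- `x0 = 0`
    refine ⟨0, ((-2 * freyT P : ℤ) : ℚ), ((P.b ^ P.p - P.a ^ P.p : ℤ) : ℚ), ?_, ?_, ?_, ?_, ?_⟩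
    · refine ⟨?_, ?_, ?_, two_ne_zero⟩
      · rw [EK_b₆_eq']
        push_cast
        ring
      · rw [EK_b₄]
        push_cast
        ring
      · rw [EK_b₂]
        push_cast
        ring
    · push_cast
      exact A.zero_mem
    · have hnd : ¬ (ℓ : ℤ) ∣ P.b ^ P.p - P.a ^ P.p := by
        intro h1
        rcases hcase with h2 | h2
        · exact hab ⟨h2, hpow.1 ((dvd_sub_left (hpow.2 h2)).1 h1)⟩
        · exact hab ⟨hpow.1 ((dvd_sub_right (hpow.2 h2)).1 h1), h2⟩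
      have := valuation_intCast_eq_one A hℓ hqA hnd
      rwa [Rat.cast_intCast]
    · have hT : freyT P ≠ 0 := by
        intro h0
        have := freyT_spec P
        rw [h0, mul_zero] at this
        exact mul_ne_zero (pow_ne_zero _ P.ha0) (pow_ne_zero _ P.hb0) this
      rw [Rat.cast_intCast]
      exact Int.cast_ne_zero.2 (mul_ne_zero (by norm_num) hT)
    · have hd : (ℓ : ℤ) ∣ -2 * freyT P := by
        have h1 : (ℓ : ℤ) ∣ (2 : ℤ) ^ 5 * freyT P := by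
          have h2 : (ℓ : ℤ) ∣ P.a ^ P.p * P.b ^ P.p := by
            rcases hcase with h2 | h2
            · exact (hpow.2 h2).mul_right _
            · exact (hpow.2 h2).mul_left _
          rw [freyT_spec] at h2
          norm_num
          exact h2
        rcases hℓi.dvd_or_dvd h1 with h2 | h2
        · exact ((hℓi.dvd_of_dvd_pow h2).neg_right).mul_right _
        · exact h2.mul_left _
      have := valuation_intCast_lt_one A hqA hd
      rwa [Rat.cast_intCast]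
  · -- `x0 = α / 4`
    push Not at hcase
    obtain ⟨hna, hnb⟩ := hcase
    have hc : (ℓ : ℤ) ∣ P.c := by
      rcases hℓi.dvd_or_dvd h with h1 | h1
      · rcases hℓi.dvd_or_dvd h1 with h2 | h2
        · exact absurd h2 hna
        · exact absurd h2 hnb
      · exact h1
    have h2 : ¬ (ℓ : ℤ) ∣ 2 := fun h2 => hnb (h2.trans hb2)
    have hv2 : ∀ k : ℕ, A.valuation ((2 : Kb) ^ k) = 1 := by
      intro k
      have h3 := valuation_intCast_eq_one A hℓ hqA h2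
      push_cast at h3
      rw [map_pow, h3, one_pow]
    have h4 : A.valuation (4 : Kb) = 1 := by
      have := hv2 2; norm_num at this; exact this
    have h16 : A.valuation (16 : Kb) = 1 := by
      have := hv2 4; norm_num at this; exact this
    have hcc := frey_cast_c P
    refine ⟨((P.a ^ P.p : ℤ) : ℚ) / 4, ((P.a ^ P.p * P.c ^ P.p : ℤ) : ℚ) / 16,
      ((P.a ^ P.p + P.c ^ P.p : ℤ) : ℚ), ?_, ?_, ?_, ?_, ?_⟩
    · refine ⟨?_, ?_, ?_, two_ne_zero⟩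
      · rw [EK_b₆_eq', EK_b₂_eq', EK_b₄_eq']
        push_cast
        field_simp
        ring
      · rw [EK_b₂_eq', EK_b₄_eq']
        push_cast
        rw [hcc]
        field_simp
        ring
      · rw [EK_b₂_eq']
        push_cast
        rw [hcc]
        field_simp
        ring
    · rw [← A.valuation_le_one_iff]
      push_cast
      rw [map_div₀, h4, div_one, map_pow]
      exact pow_le_one' (valuation_intCast_le_one A P.a) _
    · have hnd : ¬ (ℓ : ℤ) ∣ P.a ^ P.p + P.c ^ P.p := by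
        intro h1
        exact hna (hpow.1 ((dvd_add_left (hpow.2 hc)).1 h1))
      have := valuation_intCast_eq_one A hℓ hqA hnd
      rwa [Rat.cast_intCast]
    · rw [Rat.cast_div, Rat.cast_intCast]
      refine div_ne_zero (Int.cast_ne_zero.2
        (mul_ne_zero (pow_ne_zero _ P.ha0) (pow_ne_zero _ P.hc0))) ?_
      norm_num
    · have hd : (ℓ : ℤ) ∣ P.a ^ P.p * P.c ^ P.p := (hpow.2 hc).mul_left _
      have := valuation_intCast_lt_one A hqA hd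
      rw [Rat.cast_div, Rat.cast_intCast, map_div₀]
      have h16' : A.valuation ((16 : ℚ) : Kb) = 1 := by
        rw [show ((16 : ℚ) : Kb) = 16 by norm_num]
        exact h16
      rw [h16', div_one]
      exact this

end Fermat.Agent.MAZ.End
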