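import Fermat.Agent.MAZ.End.Gal1a

/-! # MAZ / End / [GAL-1]  (recipe: header of `Gal0.lean`) -/

set_option autoImplicit false

namespace Fermat.Agent.MAZ.End

open WeierstrassCurve WeierstrassCurve.Affine WeierstrassCurve.Affine.Point
open FreyPackage
open Fermat.Agent.S05 (xc yc)
open Fermat.Agent.S13

/-- the Galois action commutes with the scalars -/
lemma smul_zmod_comm (P : FreyPackage) (σ : Gl) (c : ZMod P.p) (x : Tors P) :
    σ • (c • x) = c • σ • x := (rhoLin P σ).map_smul c x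

/-- the elements acting on `N` through the cyclotomic character -/
noncomputable def Hchi {P : FreyPackage} (N : Submodule (ZMod P.p) (Tors P)) : Subgroup Gl where
  carrier := {σ | ∀ x ∈ N, σ • x = ((Fermat.Agent.GAL.cycloChar P.p σ : (ZMod P.p)ˣ) : ZMod P.p) • x}
  one_mem' := fun x _ => by rw [map_one, Units.val_one, one_smul, one_smul]
  mul_mem' := fun {a b} ha hb x hx => by
    rw [mul_smul, hb x hx, smul_zmod_comm, ha x hx, smul_smul, map_mul, Units.val_mul, mul_comm]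
  inv_mem' := fun {a} ha x hx => by
    rw [inv_smul_eq_iff, smul_zmod_comm, ha x hx, smul_smul, map_inv, Units.inv_mul, one_smul]

lemma mem_Hchi {P : FreyPackage} {N : Submodule (ZMod P.p) (Tors P)} {σ : Gl} :
    σ ∈ Hchi N ↔
      ∀ x ∈ N, σ • x = ((Fermat.Agent.GAL.cycloChar P.p σ : (ZMod P.p)ˣ) : ZMod P.p) • x :=
  Iff.rfl

/-- a group is not the union of two proper subgroups -/
lemma eq_top_or_eq_top_of_forall_mem {G : Type*} [Group G] (H K : Subgroup G)
    (h : ∀ g, g ∈ H ∨ g ∈ K) : H = ⊤ ∨ K = ⊤ := by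
  by_contra hcon
  rw [not_or] at hcon
  obtain ⟨a, ha⟩ : ∃ a, a ∉ H := by
    by_contra hh
    exact hcon.1 ((Subgroup.eq_top_iff' H).2 fun x => by
      by_contra hx
      exact hh ⟨x, hx⟩)
  obtain ⟨b, hb⟩ : ∃ b, b ∉ K := by
    by_contra hh
    exact hcon.2 ((Subgroup.eq_top_iff' K).2 fun x => by
      by_contra hx
      exact hh ⟨x, hx⟩)
  have haK : a ∈ K := (h a).resolve_left ha
  have hbH : b ∈ H := (h b).resolve_right hb
  rcases h (a * b) with hab | hab
  · exact ha ((Subgroup.mul_mem_cancel_right H hbH).1 hab)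
  · exact hb ((Subgroup.mul_mem_cancel_left K haK).1 hab)

/-- **[GAL-1]** `N ≅ μ_p`. -/
theorem smul_eq_cycloChar (P : FreyPackage) (N : Submodule (ZMod P.p) (Tors P))
    (hN : IsGaloisStable ℚ N) (hbot : N ≠ ⊥) (htop : N ≠ ⊤)
    (hcof : ∀ (σ : Gl) (x : Tors P), σ • x - x ∈ N) (σ : Gl) (x : Tors P) (hx : x ∈ N) :
    σ • x = ((Fermat.Agent.GAL.cycloChar P.p σ : (ZMod P.p)ˣ) : ZMod P.p) • x := by
  classical
  obtain ⟨L₁, hL₁, hfix₁⟩ := exists_level (wpA_finite P)
  obtain ⟨L₂, hL₂, hfix₂⟩ := Fermat.Agent.GAL.cycloChar_finiteLevel P.p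
  have hL : FiniteDimensional ℚ ↥(L₁ ⊔ L₂) := IntermediateField.finiteDimensional_sup L₁ L₂
  have habc : P.a * P.b * P.c ≠ 0 := mul_ne_zero (mul_ne_zero P.ha0 P.hb0) P.hc0
  have key : ∀ g : Gl, g ∈ H1 N ∨ g ∈ Hchi N := by
    intro g
    obtain ⟨ℓ, A, τ, c, hℓ, hℓT, hA, hτ, hg⟩ := Fermat.Agent.GAL.genCheb (L₁ ⊔ L₂) hL g
      ((P.a * P.b * P.c).natAbs.primeFactors ∪ {P.p})
    rw [Finset.mem_union, not_or, Finset.mem_singleton, Nat.mem_primeFactors] at hℓT
    have hgood : ¬ (ℓ : ℤ) ∣ P.a * P.b * P.c := by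
      intro hd
      exact hℓT.1 ⟨hℓ, Int.natCast_dvd.1 hd, Int.natAbs_ne_zero.2 habc⟩
    have hpℓ : P.p ≠ ℓ := fun h => hℓT.2 h.symm
    -- `g = τ ^ c * u`, `u` trivial on `L`
    set u : Gl := (τ ^ c)⁻¹ * g with hu
    have hgu : g = τ ^ c * u := by rw [hu, mul_inv_cancel_left]
    have hufix : ∀ y ∈ L₁ ⊔ L₂, u y = y := by
      intro y hy
      rw [hu, AlgEquiv.mul_apply, hg y hy]
      exact (τ ^ c).symm_apply_apply y
    have hu1 : ∀ y : Tors P, u • y = y := by
      apply hfix₁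
      rw [IntermediateField.mem_fixingSubgroup_iff]
      exact fun y hy => hufix y ((le_sup_left : L₁ ≤ L₁ ⊔ L₂) hy)
    have hu2 : Fermat.Agent.GAL.cycloChar P.p u = 1 :=
      hfix₂ u (fun y hy => hufix y ((le_sup_right : L₂ ≤ L₁ ⊔ L₂) hy))
    have huH1 : u ∈ H1 N := fun y _ => hu1 y
    have huHc : u ∈ Hchi N := fun y _ => by rw [hu1, hu2, Units.val_one, one_smul]
    rcases (frob_smul_eq P N hN hbot htop hcof hℓ hgood hpℓ A hA τ hτ).2 with h | h
    · left
      rw [hgu]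
      exact (H1 N).mul_mem ((H1 N).pow_mem h c) huH1
    · right
      rw [hgu]
      refine (Hchi N).mul_mem ((Hchi N).pow_mem (fun y hy => ?_) c) huHc
      rw [h y hy, Fermat.Agent.GAL.cycloChar_of_isFrobeniusAt hℓ (Ne.symm hpℓ) hA hτ]
  rcases eq_top_or_eq_top_of_forall_mem _ _ key with h | h
  · exfalso
    apply hbot
    rw [Submodule.eq_bot_iff]
    intro y hy
    apply wpE P y
    intro g
    have : g ∈ H1 N := by rw [h]; trivial
    exact this y hy
  · have : σ ∈ Hchi N := by rw [h]; trivial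
    exact this x hx

end Fermat.Agent.MAZ.End
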