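import Fermat.Agent.MAZ.End.Gal0

/-! # MAZ / End / [GAL-1a]  (recipe: header of `Gal0.lean`) -/

set_option autoImplicit false

namespace Fermat.Agent.MAZ.End

open WeierstrassCurve WeierstrassCurve.Affine WeierstrassCurve.Affine.Point
open FreyPackage
open Fermat.Agent.S05 (xc yc)
open Fermat.Agent.S13

/-- linear algebra behind [GAL-1a] -/
theorem lin_frob_eq {k V : Type*} [Field k] [AddCommGroup V] [Module k V] [FiniteDimensional k V]
    (hV : Module.finrank k V ≤ 2) (N : Submodule k V) (hbot : N ≠ ⊥) (htop : N ≠ ⊤)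
    (g : V →ₗ[k] V) (hgN : ∀ x ∈ N, g x ∈ N) (hcof : ∀ x, g x - x ∈ N) (a l : k)
    (hrel : ∀ x, g (g x) - a • g x + l • x = 0) :
    a = 1 + l ∧ ((∀ x ∈ N, g x = x) ∨ (∀ x ∈ N, g x = l • x)) := by
  obtain ⟨e, x₀, heN, he0, hx₀, -, hNe⟩ := exists_pair_span hV N hbot htop
  have ha : a = 1 + l := by
    set y := g x₀ - x₀ with hy
    have hyN : y ∈ N := hcof x₀
    have h1 : g x₀ = x₀ + y := by rw [hy]; abel
    have h2 := hrel x₀
    rw [h1, map_add, h1] at h2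
    have h3 : (1 + l - a) • x₀ = -(y + g y - a • y) := by
      have : (1 + l - a) • x₀ + (y + g y - a • y) = x₀ + y + g y - a • (x₀ + y) + l • x₀ := by
        rw [sub_smul, add_smul, one_smul, smul_add]
        abel
      rw [h2] at this
      exact eq_neg_of_add_eq_zero_left this
    have h4 : (1 + l - a) • x₀ ∈ N := by
      rw [h3]
      exact N.neg_mem (N.sub_mem (N.add_mem hyN (hgN y hyN)) (N.smul_mem _ hyN))
    by_contra hne
    have h5 : 1 + l - a ≠ 0 := fun h => hne (sub_eq_zero.1 h).symm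
    apply hx₀
    have : x₀ = (1 + l - a)⁻¹ • ((1 + l - a) • x₀) := by
      rw [smul_smul, inv_mul_cancel₀ h5, one_smul]
    rw [this]
    exact N.smul_mem _ h4
  refine ⟨ha, ?_⟩
  obtain ⟨t, ht⟩ := hNe (g e) (hgN e heN)
  have h2 := hrel e
  rw [ht, map_smul, ht, smul_smul, smul_smul, ← sub_smul, ← add_smul] at h2
  have h3 : t * t - a * t + l = 0 := (smul_eq_zero.1 h2).resolve_right he0
  have h4 : (t - 1) * (t - l) = 0 := by
    rw [ha] at h3
    linear_combination h3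
  rcases mul_eq_zero.1 h4 with h | h
  · left
    intro x hx
    obtain ⟨c, rfl⟩ := hNe x hx
    rw [map_smul, ht, sub_eq_zero.1 h, one_smul]
  · right
    intro x hx
    obtain ⟨c, rfl⟩ := hNe x hx
    rw [map_smul, ht, sub_eq_zero.1 h, smul_comm]

/-- **[GAL-1a]** a Frobenius at a good prime acts on `N` by `1` or by `ℓ`. -/
theorem frob_smul_eq (P : FreyPackage) (N : Submodule (ZMod P.p) (Tors P))
    (hN : IsGaloisStable ℚ N) (hbot : N ≠ ⊥) (htop : N ≠ ⊤)
    (hcof : ∀ (σ : Gl) (x : Tors P), σ • x - x ∈ N) {ℓ : ℕ} (hℓ : ℓ.Prime)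
    (hgood : ¬ (ℓ : ℤ) ∣ P.a * P.b * P.c) (hpℓ : P.p ≠ ℓ)
    (A : ValuationSubring Kb) (hA : A.LiesOverPrime ℓ) (τ : Gl) (hτ : A.IsFrobeniusAt τ ℓ) :
    ((P.freyCurveInt.apOfModel ℓ : ℤ) : ZMod P.p) = 1 + ℓ ∧
    ((∀ x ∈ N, τ • x = x) ∨ (∀ x ∈ N, τ • x = (ℓ : ZMod P.p) • x)) := by
  have hfin := wpA_finite P
  have : Module.Finite (ZMod P.p) (Tors P) := Module.Finite.of_finite
  refine lin_frob_eq (finrank_le_two hfin (wpA_card P)) N hbot htop (rhoLin P τ)
    (fun x hx => hN τ x hx) (fun x => hcof τ x) _ _ (fun x => ?_)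
  have h := frey_frobenius_relation P hℓ hgood hpℓ A hA τ hτ x
  rw [rhoLin_apply, rhoLin_apply, Int.cast_smul_eq_zsmul, Nat.cast_smul_eq_nsmul]
  rw [natCast_zsmul] at h
  exact h

end Fermat.Agent.MAZ.End
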