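import Fermat.Agent.MAZ.End.Gal1a

/-! # MAZ / End / [GAL-2]  (recipe: header of `Gal0.lean`) -/

set_option autoImplicit false

namespace Fermat.Agent.MAZ.End

open WeierstrassCurve WeierstrassCurve.Affine WeierstrassCurve.Affine.Point
open FreyPackage
open Fermat.Agent.S05 (xc yc)
open Fermat.Agent.S13

/-- trivial bound: a Weierstrass curve over `𝔽₃` has between `1` and `10` points. -/
lemma card_point_three (W : WeierstrassCurve (ZMod 3)) :
    0 < Nat.card W.toAffine.Point ∧ Nat.card W.toAffine.Point ≤ 10 := by
  let f : W.toAffine.Point → Option (ZMod 3 × ZMod 3) := fun Q =>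
    match Q with
    | .zero => none
    | .some x y _ => some (x, y)
  have hf : Function.Injective f := by
    intro Q R h
    cases Q with
    | zero =>
      cases R with
      | zero => rfl
      | some x y h' => simp [f] at h
    | some x y hQ =>
      cases R with
      | zero => simp [f] at h
      | some x' y' h' =>
        simp only [f, Option.some.injEq, Prod.mk.injEq] at h
        obtain ⟨rfl, rfl⟩ := h
        rfl
  have hfin : Finite W.toAffine.Point := Finite.of_injective f hf
  refine ⟨Nat.card_pos, ?_⟩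
  have h1 := Nat.card_le_card_of_injective f hf
  have h2 : Nat.card (Option (ZMod 3 × ZMod 3)) = 10 := by
    rw [Nat.card_eq_fintype_card]
    rfl
  omega

/-- **[GAL-2]** -/
theorem three_dvd_abc (P : FreyPackage) (hp : 11 ≤ P.p) (N : Submodule (ZMod P.p) (Tors P))
    (hN : IsGaloisStable ℚ N) (hbot : N ≠ ⊥) (htop : N ≠ ⊤)
    (hcof : ∀ (σ : Gl) (x : Tors P), σ • x - x ∈ N) : (3 : ℤ) ∣ P.a * P.b * P.c := by
  by_contra hgood
  obtain ⟨A, hA⟩ := exists_place 3 Nat.prime_three
  obtain ⟨τ, hτ⟩ := S54.exists_isFrobeniusAt_of_liesOverPrime Nat.prime_three A hA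
  have h := (frob_smul_eq P N hN hbot htop hcof Nat.prime_three (by exact_mod_cast hgood)
    (by omega) A hA τ hτ).1
  obtain ⟨h0, h10⟩ := card_point_three (P.freyCurveInt.reductionMod 3)
  have h1 : P.freyCurveInt.apOfModel 3
      = 3 + 1 - (Nat.card (P.freyCurveInt.reductionMod 3).toAffine.Point : ℤ) := by
    simp [WeierstrassCurve.apOfModel, WeierstrassCurve.traceOfFrobenius, WeierstrassCurve.card]
  rw [h1] at h
  have h2 : ((Nat.card (P.freyCurveInt.reductionMod 3).toAffine.Point : ℕ) : ZMod P.p) = 0 := by
    push_cast at h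
    linear_combination -h
  rw [ZMod.natCast_eq_zero_iff] at h2
  have := Nat.le_of_dvd h0 h2
  omega

end Fermat.Agent.MAZ.End
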