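import Fermat.Agent.MAZ.End.Gal0

/-! # MAZ / End / [GAL-P]  (recipe: header of `Gal0.lean`) -/

set_option autoImplicit false

namespace Fermat.Agent.MAZ.End

open WeierstrassCurve WeierstrassCurve.Affine WeierstrassCurve.Affine.Point
open FreyPackage
open Fermat.Agent.S05 (xc yc)
open Fermat.Agent.S13

/-- two nonzero points of a line are multiples of each other -/
lemma exists_nsmul_eq_of_mem_line (P : FreyPackage) (N : Submodule (ZMod P.p) (Tors P))
    (hbot : N ≠ ⊥) (htop : N ≠ ⊤) {x y : Tors P} (hx : x ∈ N) (hy : y ∈ N) (hy0 : y ≠ 0) :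
    ∃ c : ℕ, x = c • y := by
  have hfin := wpA_finite P
  have : Module.Finite (ZMod P.p) (Tors P) := Module.Finite.of_finite
  obtain ⟨e, x₀, heN, he0, hx₀, hall, hNe⟩ :=
    exists_pair_span (finrank_le_two hfin (wpA_card P)) N hbot htop
  obtain ⟨a, rfl⟩ := hNe x hx
  obtain ⟨b, rfl⟩ := hNe y hy
  have hb : b ≠ 0 := by
    rintro rfl
    exact hy0 (zero_smul _ _)
  refine ⟨(a * b⁻¹).val, ?_⟩
  rw [← Nat.cast_smul_eq_nsmul (ZMod P.p), ZMod.natCast_zmod_val, smul_smul, mul_assoc,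
    inv_mul_cancel₀ hb, mul_one]

/-- **[GAL-P]** -/
theorem xc_not_mem_of_mem_line (P : FreyPackage) (N : Submodule (ZMod P.p) (Tors P))
    (hN : IsGaloisStable ℚ N) (hbot : N ≠ ⊥) (htop : N ≠ ⊤)
    (A : ValuationSubring Kb) (hA : A.LiesOverPrime P.p) (x : Tors P) (hx : x ∈ N) (hx0 : x ≠ 0) :
    xc (x : (EK P).Point) ∉ A := by
  intro hxA
  have hA2 := wpA_finite P
  have hA3 := wpA_card P
  have I := EK_intData P A
  -- all nonzero points of `N` are integral at `A`
  have h1 : ∀ y ∈ N, y ≠ 0 → xc (y : (EK P).Point) ∈ A := by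
    intro y hy hy0
    by_contra hyA
    obtain ⟨c, hc⟩ := exists_nsmul_eq_of_mem_line P N hbot htop hx hy hy0
    have h2 : InE1 A (c • (y : (EK P).Point)) :=
      InE1.nsmul I.b₂ I.b₄ I.b₆ I.b₈ (Or.inr hyA) c
    have h3 : (x : (EK P).Point) = c • (y : (EK P).Point) := by
      rw [hc]; rfl
    rw [← h3] at h2
    rcases h2 with h2 | h2
    · exact hx0 (Subtype.ext h2)
    · exact h2 hxA
  obtain ⟨L, hL, hLfix⟩ := exists_level hA2
  have := H1_normal hN
  have htopH : H1 N = ⊤ := by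
    apply eq_top_of_inertia_le (H1 N) ⟨L, hL, fun σ hσ x _ => hLfix σ hσ x⟩
    intro q hq
    by_cases hqp : q = P.p
    · subst hqp
      refine ⟨A, hA, fun σ hσ x hx => ?_⟩
      have hmem : σ • x - x ∈ N := N.sub_mem (hN σ x hx) hx
      rcases wpC P A hA σ hσ x (fun j hj => h1 _ (N.smul_of_tower_mem j hx) hj) with h | h
      · exact sub_eq_zero.1 h
      · by_contra hne
        exact h (h1 _ hmem (sub_ne_zero.2 hne))
    · obtain ⟨B, hB⟩ := exists_place q hq
      refine ⟨B, hB, ?_⟩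
      by_cases hq2 : q = 2
      · subst hq2
        exact fun σ hσ => (unipotent_mem hA2 hA3 hN hbot htop
          (fun x => wpD P B hB σ σ hσ hσ x)).1
      · have h5 := Fermat.Agent.S05.result P hq hq2 hqp B hB
        exact fun σ hσ x _ => h5 σ hσ x
  apply hx0
  apply wpE P x
  intro σ
  have : σ ∈ H1 N := by rw [htopH]; trivial
  exact this x hx

end Fermat.Agent.MAZ.End
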