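import Fermat.Agent.S05.Main
import Fermat.Agent.S13.MultVal2
import Fermat.Agent.S13.LocP
import Fermat.Agent.MAZ.Ell.Curve

/-!
# MAZ / End / Loc : local analysis of `Ψ(x(kQ))` and of `Λ(E,Q)` at a place `A`   (S12-END)

`K` a field, `A` a valuation subring, `W` a Weierstrass curve with coefficients in `A`,
`Q` a point of odd prime order `p`.  `Ψ = psiX W = 4x³ + b₂x² + 2b₄x + b₆`, `X_k := x(kQ) - x0`,
`ShiftData W x0 c b'`:  `Ψ(x) = X (4X² + b'X + 4c)`  (`ShiftData.psi`),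
`X_{i+j} X_{i-j} (X_i - X_j)² = (X_i X_j - c)²` (`ShiftData.prod`),
`X_{2i} Ψ(x_i) = (X_i² - c)²` (`ShiftData.dbl`),  `Δ = c² (b'² - 64 c)`.

* [LOC-E1]  `x ∉ A`, `v 2 = 1`  ⟹  `Ψ(x)⁻¹ ∈ A`      (`v(4x³)` dominates).
* [LOC-NS]  good reduction, `x(P), x(2P) ∈ A` ⟹ `v(Ψ(x(P))) = 1`:
  with `η = 2y + a₁x + a₃`, `ω = a₁y - (3x² + 2a₂x + a₄)`:  `Ψ(x) = η²` (`psi2_sq`) and, on the curve,
  `x⁴ - b₄x² - 2b₆x - b₈ = ω² - a₁ ω η - (a₂ + 2x) η²`; `xc_dbl`: `x(2P) Ψ(x) = x⁴ - b₄x² - 2b₆x - b₈`.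
  If `v η < 1` then `v ω = 1` (`hns_of_unit_disc`), so the RHS is a unit while the LHS is not.
* [LOC-U]  `v(X_P) = 1`, `x(2P) ∈ A`  ⟹ `v(Ψ(x_P)) = 1`   (`ShiftData.dbl`; all three factors are integral and the
  product `(X² - c)²` is a unit).
* [LOC-D]  dichotomy + pattern (see the statement).
  (i) `U := {k : p ∣ k ∨ v(X_k) = 1}`: if `i ∈ U`, `p ∤ i`, then `n i ∈ U` for `n = 1, .., p-1` by induction
  (`n = 2`: `dbl`; `n → n+1`: `prod` for `(n i, i)`: RHS unit, all factors integral), hence `U = ℤ`.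
  (ii) otherwise all `v(X_k) < 1`; choose `k₁` with `v(X_{k₁})` maximal among `k = 1..p-1`, copy the proof of
  `S13.mult_val_gen` for `X j := xc ((j * k₁) • Q) - x0`, but keep BOTH conclusions of `S05.comb_gen`.
* [LOC-A], [LOC-B]  valuation of `Λ`.
-/

set_option autoImplicit false

namespace Fermat.Agent.MAZ.End

open WeierstrassCurve WeierstrassCurve.Affine WeierstrassCurve.Affine.Point
open Fermat.Agent.S05 Fermat.Agent.MAZ.Ell

variable {K : Type*} [Field K] [CharZero K] [DecidableEq K] {A : ValuationSubring K}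
  {W : WeierstrassCurve.Affine K}

/-- **[LOC-E1]** -/
theorem inv_psiX_mem_of_not_mem (I : IntData A W) (h2 : A.valuation (2 : K) = 1) {x : K}
    (hx : x ∉ A) : (psiX W x)⁻¹ ∈ A := by
  have le1 : ∀ {z : K}, z ∈ A → A.valuation z ≤ 1 := fun hz => (A.valuation_le_one_iff _).2 hz
  have ha : 1 < A.valuation x := by
    rw [← not_le, A.valuation_le_one_iff]
    exact hx
  have h4 : A.valuation (4 * x ^ 3) = A.valuation x ^ 3 := by
    have : (4 : K) = 2 * 2 := by norm_num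
    rw [map_mul, this, map_mul, h2, one_mul, one_mul, map_pow]
  have hsq : 1 ≤ A.valuation x ^ 2 := one_le_pow₀ ha.le
  have hrest : A.valuation (W.b₂ * x ^ 2 + 2 * W.b₄ * x + W.b₆) ≤ A.valuation x ^ 2 := by
    refine Valuation.map_add_le _ (Valuation.map_add_le _ ?_ ?_) ((le1 I.b₆).trans hsq)
    · rw [map_mul, map_pow]
      exact mul_le_of_le_one_left' (le1 I.b₂)
    · rw [map_mul, map_mul, h2, one_mul]
      calc A.valuation W.b₄ * A.valuation x ≤ 1 * A.valuation x := by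
            gcongr
            exact le1 I.b₄
        _ = A.valuation x ^ 1 := by rw [one_mul, pow_one]
        _ ≤ A.valuation x ^ 2 := pow_le_pow_right₀ ha.le (by norm_num)
  have hlt : A.valuation x ^ 2 < A.valuation x ^ 3 := pow_lt_pow_right₀ ha (by norm_num)
  have hval : A.valuation (psiX W x) = A.valuation x ^ 3 := by
    have : psiX W x = 4 * x ^ 3 + (W.b₂ * x ^ 2 + 2 * W.b₄ * x + W.b₆) := by
      simp only [psiX]; ring
    rw [this, Valuation.map_add_eq_of_lt_left _ (by rw [h4]; exact lt_of_le_of_lt hrest hlt), h4]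
  rw [← A.valuation_le_one_iff, map_inv₀, hval]
  exact inv_le_one_of_one_le₀ (one_le_pow₀ ha.le)

/-- **[LOC-NS]** -/
theorem val_psiX_eq_one_of_good (I : IntData A W) (hΔ : A.valuation W.Δ = 1) {P : W.Point}
    (hP : P ≠ 0) (h2P : P + P ≠ 0) (hx : xc P ∈ A) (hx2 : xc (P + P) ∈ A) :
    A.valuation (psiX W (xc P)) = 1 := by
  have le1 : ∀ {z : K}, z ∈ A → A.valuation z ≤ 1 := fun hz => (A.valuation_le_one_iff _).2 hz
  have hy : yc P ∈ A :=
    (A.valuation_le_one_iff _).1 (y_integral A I.h₁ I.h₂ I.h₃ I.h₄ I.h₆ hP (le1 hx))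
  have m2 : (2 : K) ∈ A := by exact_mod_cast natCast_mem A 2
  have m3 : (3 : K) ∈ A := by exact_mod_cast natCast_mem A 3
  set η := 2 * yc P + W.a₁ * xc P + W.a₃ with hη
  set ω := W.a₁ * yc P - (3 * xc P ^ 2 + 2 * W.a₂ * xc P + W.a₄) with hω
  have hηA : η ∈ A := A.add_mem _ _ (A.add_mem _ _ (A.mul_mem _ _ m2 hy) (A.mul_mem _ _ I.h₁ hx)) I.h₃
  have hωA : ω ∈ A := A.sub_mem (A.mul_mem _ _ I.h₁ hy)
    (A.add_mem _ _ (A.add_mem _ _ (A.mul_mem _ _ m3 (pow_mem hx 2))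
      (A.mul_mem _ _ (A.mul_mem _ _ m2 I.h₂) hx)) I.h₄)
  have hpsi : psiX W (xc P) = η ^ 2 := (psi2_sq hP).symm
  have hid : xc (P + P) * η ^ 2 = ω ^ 2 - (W.a₁ * ω + (W.a₂ + 2 * xc P) * η) * η := by
    have e1 := equation_xc_yc hP
    have e2 := xc_dbl hP h2P
    rw [← psi2_sq hP] at e2
    rw [e2, hη, hω]
    simp only [WeierstrassCurve.b₄, WeierstrassCurve.b₆, WeierstrassCurve.b₈]
    linear_combination (W.a₁ ^ 2 + 4 * W.a₂ + 8 * xc P) * e1
  have hη1 : A.valuation η = 1 := by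
    by_contra hne
    have hlt : A.valuation η < 1 := lt_of_le_of_ne (le1 hηA) hne
    have hω1 : A.valuation ω = 1 :=
      (hns_of_unit_disc A I.h₁ I.h₂ I.h₃ I.h₄ hΔ hP (le1 hx) (le1 hy)).resolve_right hne
    have hL : A.valuation (xc (P + P) * η ^ 2) < 1 := by
      rw [map_mul, map_pow]
      calc A.valuation (xc (P + P)) * A.valuation η ^ 2 ≤ 1 * A.valuation η ^ 2 := by
            gcongr
            exact le1 hx2
        _ < 1 := by
            rw [one_mul]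
            exact pow_lt_one₀ zero_le hlt (by norm_num)
    have hR2 : A.valuation ((W.a₁ * ω + (W.a₂ + 2 * xc P) * η) * η) < 1 := by
      rw [map_mul]
      calc A.valuation (W.a₁ * ω + (W.a₂ + 2 * xc P) * η) * A.valuation η
          ≤ 1 * A.valuation η := by
            gcongr
            exact le1 (A.add_mem _ _ (A.mul_mem _ _ I.h₁ hωA)
              (A.mul_mem _ _ (A.add_mem _ _ I.h₂ (A.mul_mem _ _ m2 hx)) hηA))
        _ < 1 := by rwa [one_mul]
    have hR : A.valuation (ω ^ 2 - (W.a₁ * ω + (W.a₂ + 2 * xc P) * η) * η) = 1 := by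
      rw [Valuation.map_sub_eq_of_lt_left _ (by rw [map_pow, hω1, one_pow]; exact hR2), map_pow,
        hω1, one_pow]
    rw [hid, hR] at hL
    exact lt_irrefl _ hL
  rw [hpsi, map_pow, hη1, one_pow]

variable {x0 c b' : K}

/-- **[LOC-U]** -/
theorem val_psiX_eq_one_of_unit (H : ShiftData W x0 c b') (hx0 : x0 ∈ A) (hb' : b' ∈ A)
    (hc1 : A.valuation c < 1) {P : W.Point} (hP : P ≠ 0) (h2P : P + P ≠ 0)
    (hX : A.valuation (xc P - x0) = 1) (hx2 : xc (P + P) ∈ A) :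
    A.valuation (psiX W (xc P)) = 1 := by
  have le1 : ∀ {z : K}, z ∈ A → A.valuation z ≤ 1 := fun hz => (A.valuation_le_one_iff _).2 hz
  have m4 : (4 : K) ∈ A := by exact_mod_cast natCast_mem A 4
  have hXA : xc P - x0 ∈ A := (A.valuation_le_one_iff _).1 hX.le
  have hcA : c ∈ A := (A.valuation_le_one_iff _).1 hc1.le
  have hpsi : psiX W (xc P) =
      (xc P - x0) * (4 * (xc P - x0) ^ 2 + b' * (xc P - x0) + 4 * c) := H.psi _
  have e := H.dbl hP h2P
  rw [← hpsi] at e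
  have hR : A.valuation (((xc P - x0) ^ 2 - c) ^ 2) = 1 := by
    rw [map_pow, Valuation.map_sub_eq_of_lt_left _ (by rw [map_pow, hX, one_pow]; exact hc1),
      map_pow, hX, one_pow, one_pow]
  have hΨ : A.valuation (psiX W (xc P)) ≤ 1 := by
    rw [hpsi]
    exact le1 (A.mul_mem _ _ hXA (A.add_mem _ _ (A.add_mem _ _ (A.mul_mem _ _ m4 (pow_mem hXA 2))
      (A.mul_mem _ _ hb' hXA)) (A.mul_mem _ _ m4 hcA)))
  refine le_antisymm hΨ ?_
  rw [← hR, ← e, map_mul]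
  exact mul_le_of_le_one_left' (le1 (A.sub_mem hx2 hx0))

omit [CharZero K] [DecidableEq K] in
/-- `Δ = c² (b'² - 64 c)`. -/
theorem ShiftData_disc (H : ShiftData W x0 c b') : W.Δ = c ^ 2 * (b' ^ 2 - 64 * c) := by
  have h8 := H.b₈_eq
  have b6 : W.b₆ = -(4 * x0 ^ 3 + W.b₂ * x0 ^ 2 + 2 * W.b₄ * x0) := by linear_combination H.h0
  have b4 : W.b₄ = 2 * c - W.b₂ * x0 - 6 * x0 ^ 2 := by linear_combination -H.hc
  have b2 : W.b₂ = b' - 12 * x0 := by linear_combination -H.hb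
  simp only [WeierstrassCurve.Δ]
  rw [h8, b6, b4, b2]
  ring

end Fermat.Agent.MAZ.End
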