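import Fermat.Agent.MAZ.End.LocPattern

/-! # MAZ / End / [LOC-INJ] -/

set_option autoImplicit false

namespace Fermat.Agent.MAZ.End

open WeierstrassCurve WeierstrassCurve.Affine WeierstrassCurve.Affine.Point
open Fermat.Agent.S05 Fermat.Agent.MAZ.Ell

variable {K : Type*} [Field K] [CharZero K] [DecidableEq K] {A : ValuationSubring K}
  {W : WeierstrassCurve.Affine K}

variable {x0 c b' : K}

/-- every class prime to `p` is `± m k₁` with `1 ≤ m ≤ (p-1)/2`. -/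
theorem exists_half_rep {p : ℕ} (hp : p.Prime) (hp2 : p ≠ 2) {k₁ i : ℤ} (hk₁ : ¬ (p : ℤ) ∣ k₁)
    (hi : ¬ (p : ℤ) ∣ i) :
    ∃ m : ℕ, 1 ≤ m ∧ 2 * m < p ∧ ((p : ℤ) ∣ i - m * k₁ ∨ (p : ℤ) ∣ i + m * k₁) := by
  have hpi : Prime (p : ℤ) := Nat.prime_iff_prime_int.1 hp
  have hp0 : (0 : ℤ) < p := by exact_mod_cast hp.pos
  have hodd : ¬ 2 ∣ p := fun h => hp2 ((Nat.prime_dvd_prime_iff_eq Nat.prime_two hp).1 h).symm
  obtain ⟨a, b, hab⟩ : IsCoprime (p : ℤ) k₁ := (Prime.coprime_iff_not_dvd hpi).2 hk₁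
  set t := i * b with ht
  have htnd : ¬ (p : ℤ) ∣ t := by
    intro h
    apply hi
    have h1 : i = p * (i * a) + t * k₁ := by rw [ht]; linear_combination -i * hab
    rw [h1]
    exact dvd_add (dvd_mul_right _ _) (Dvd.dvd.mul_right h _)
  have h1 : 0 ≤ t % p := Int.emod_nonneg _ hp0.ne'
  have h2 : t % p < p := Int.emod_lt_of_pos _ hp0
  have h3 : t % p ≠ 0 := fun h => htnd (Int.dvd_of_emod_eq_zero h)
  have h4 : ((t % p).toNat : ℤ) = t % p := Int.toNat_of_nonneg h1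
  have h5 : t % p = t - p * (t / p) := by
    have := Int.mul_ediv_add_emod t p
    linarith
  have key : (p : ℤ) ∣ i - (t % p) * k₁ := by
    refine ⟨i * a + (t / p) * k₁, ?_⟩
    rw [h5, ht]
    linear_combination -i * hab
  by_cases hlt : 2 * (t % p).toNat < p
  · exact ⟨(t % p).toNat, by omega, hlt, Or.inl (by rw [h4]; exact key)⟩
  · refine ⟨p - (t % p).toNat, by omega, by omega, Or.inr ?_⟩
    rw [Nat.cast_sub (by omega), h4]
    have : i + ((p : ℤ) - t % p) * k₁ = (i - (t % p) * k₁) + p * k₁ := by ring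
    rw [this]
    exact dvd_add key (dvd_mul_right _ _)

/-- **[LOC-INJ]** in the second case of `loc_pattern` the valuation of `X_k` determines `±k mod p`.
(`i ≡ ± m k₁`, `j ≡ ± m' k₁` with `1 ≤ m, m' ≤ (p-1)/2`, `xc_neg`; `r^m = r^m'`, `0 < r < 1` ⟹ `m = m'`.) -/
theorem loc_inj (H : ShiftData W x0 c b') (hx0 : x0 ∈ A) (hb' : A.valuation b' = 1)
    (hc0 : c ≠ 0) (hc1 : A.valuation c < 1) {p : ℕ} (hp : p.Prime) (hp2 : p ≠ 2) {Q : W.Point}
    (hQ : addOrderOf Q = p) (hint : ∀ k : ℤ, ¬ (p : ℤ) ∣ k → xc (k • Q) ∈ A)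
    {k₀ : ℤ} (hk₀ : ¬ (p : ℤ) ∣ k₀) (hnu : A.valuation (xc (k₀ • Q) - x0) ≠ 1)
    {i j : ℤ} (hi : ¬ (p : ℤ) ∣ i) (hj : ¬ (p : ℤ) ∣ j)
    (hv : A.valuation (xc (i • Q) - x0) = A.valuation (xc (j • Q) - x0)) :
    (p : ℤ) ∣ i - j ∨ (p : ℤ) ∣ i + j := by
  have hpQ : p • Q = 0 := by rw [← hQ]; exact addOrderOf_nsmul_eq_zero Q
  have hQ0 : Q ≠ 0 := by
    intro h
    rw [h, addOrderOf_zero] at hQ
    exact hp.one_lt.ne hQ
  have hz := zsmul_eq_zero_iff_dvd hp hQ0 hpQ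
  rcases loc_pattern H hx0 hb' hc0 hc1 hp hp2 hQ hint with h | ⟨hlt, k₁, hk₁, hrp, hpat⟩
  · exact absurd (h k₀ hk₀) hnu
  set r := A.valuation (xc (k₁ • Q) - x0) with hr
  have hr1 : r < 1 := hlt k₁ hk₁
  have hr0 : 0 < r := by
    rw [pos_iff_ne_zero]
    intro h0
    rw [h0, zero_pow hp.ne_zero] at hrp
    exact pow_ne_zero 2 ((A.valuation.ne_zero_iff).2 hc0) hrp.symm
  have hval : ∀ (l : ℤ) (m : ℕ), 1 ≤ m → 2 * m < p →
      ((p : ℤ) ∣ l - m * k₁ ∨ (p : ℤ) ∣ l + m * k₁) → A.valuation (xc (l • Q) - x0) = r ^ m := by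
    intro l m hm1 hm2 hl
    rw [← hpat m hm1 hm2]
    rcases hl with hl | hl
    · have : l • Q = ((m : ℤ) * k₁) • Q := by
        rw [← sub_eq_zero, ← sub_smul]
        exact (hz _).2 hl
      rw [this]
    · have : l • Q = -(((m : ℤ) * k₁) • Q) := by
        rw [eq_neg_iff_add_eq_zero, ← add_smul]
        exact (hz _).2 hl
      rw [this, xc_neg]
  obtain ⟨m, hm1, hm2, hm⟩ := exists_half_rep hp hp2 hk₁ hi
  obtain ⟨m', hm1', hm2', hm'⟩ := exists_half_rep hp hp2 hk₁ hj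
  rw [hval i m hm1 hm2 hm, hval j m' hm1' hm2' hm'] at hv
  have hmm : m = m' := (pow_right_strictAnti₀ hr0 hr1).injective hv
  subst hmm
  rcases hm with hm | hm <;> rcases hm' with hm' | hm'
  · left
    have := dvd_sub hm hm'
    rwa [show i - m * k₁ - (j - m * k₁) = i - j by ring] at this
  · right
    have := dvd_add hm hm'
    rwa [show i - m * k₁ + (j + m * k₁) = i + j by ring] at this
  · right
    have := dvd_add hm hm'
    rwa [show i + m * k₁ + (j - m * k₁) = i + j by ring] at this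
  · left
    have := dvd_sub hm hm'
    rwa [show i + m * k₁ - (j + m * k₁) = i - j by ring] at this

end Fermat.Agent.MAZ.End
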