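import Fermat.Agent.MAZ.End.LocBasic

/-! # MAZ / End / [LOC-A] -/

set_option autoImplicit false

namespace Fermat.Agent.MAZ.End

open WeierstrassCurve WeierstrassCurve.Affine WeierstrassCurve.Affine.Point
open Fermat.Agent.S05 Fermat.Agent.MAZ.Ell

variable {K : Type*} [Field K] [CharZero K] [DecidableEq K] {A : ValuationSubring K}
  {W : WeierstrassCurve.Affine K}

variable {x0 c b' : K}

/-- **[LOC-A]** all `X_k` units ⟹ `|Λ| = |Δ|^{-(p-1)} > 1`. -/
theorem one_lt_val_lam_of_units (H : ShiftData W x0 c b') (hx0 : x0 ∈ A)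
    (hb' : A.valuation b' = 1) (hc0 : c ≠ 0) (hc1 : A.valuation c < 1) {p : ℕ} (hp : p.Prime)
    (hp2 : p ≠ 2) (hpA : A.valuation (p : K) = 1) {Q : W.Point} (hQ : addOrderOf Q = p)
    (hint : ∀ k : ℤ, ¬ (p : ℤ) ∣ k → xc (k • Q) ∈ A)
    (hU : ∀ k : ℤ, ¬ (p : ℤ) ∣ k → A.valuation (xc (k • Q) - x0) = 1) :
    1 < A.valuation (lam W p Q) := by
  have hpi : Prime (p : ℤ) := Nat.prime_iff_prime_int.1 hp
  have hp3 : 3 ≤ p := by
    have := hp.two_le; omega
  have h2nd : ∀ j : ℤ, ¬ (p : ℤ) ∣ j → ¬ (p : ℤ) ∣ j + j := by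
    intro j hj h
    rw [← two_mul] at h
    rcases hpi.dvd_or_dvd h with h | h
    · have := Int.le_of_dvd (by norm_num) h
      omega
    · exact hj h
  have hne0 : ∀ j : ℤ, ¬ (p : ℤ) ∣ j → j • Q ≠ 0 := by
    intro j hj h
    exact hj (hQ ▸ (addOrderOf_dvd_iff_zsmul_eq_zero.2 h))
  have hb'A : b' ∈ A := (A.valuation_le_one_iff _).1 hb'.le
  -- every factor is a unit
  have hΨ : ∀ k ∈ Finset.Ico 1 p, A.valuation (psiX W (xc (k • Q))) = 1 := by
    intro k hk
    rw [Finset.mem_Ico] at hk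
    have hkp : ¬ (p : ℤ) ∣ (k : ℤ) := by
      intro h
      have := Int.le_of_dvd (by omega) h
      omega
    rw [← natCast_zsmul]
    refine val_psiX_eq_one_of_unit H hx0 hb'A hc1 (hne0 _ hkp) ?_ (hU _ hkp) ?_
    · rw [← add_zsmul]
      exact hne0 _ (h2nd _ hkp)
    · rw [← add_zsmul]
      exact hint _ (h2nd _ hkp)
  have hprod : A.valuation (∏ k ∈ Finset.Ico 1 p, psiX W (xc (k • Q))) = 1 := by
    rw [map_prod]
    exact Finset.prod_eq_one hΨ
  have h64 : A.valuation (64 * c) < 1 := by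
    rw [map_mul, mul_comm]
    have h1 : A.valuation (64 : K) ≤ 1 :=
      (A.valuation_le_one_iff _).2 (by exact_mod_cast natCast_mem A 64)
    exact mul_lt_one_of_lt_of_le hc1 h1
  have hfac : A.valuation (b' ^ 2 - 64 * c) = 1 := by
    have h1 : A.valuation (b' ^ 2) = 1 := by rw [map_pow, hb', one_pow]
    rw [Valuation.map_sub_eq_of_lt_left _ (by rw [h1]; exact h64), h1]
  have hvc0 : A.valuation c ≠ 0 := (Valuation.ne_zero_iff _).2 hc0
  have hΔ : A.valuation W.Δ = A.valuation c ^ 2 := by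
    rw [ShiftData_disc H, map_mul, hfac, mul_one, map_pow]
  have hΔ1 : A.valuation W.Δ ^ (p - 1) < 1 := by
    rw [hΔ, ← pow_mul]
    exact pow_lt_one₀ zero_le hc1 (by omega)
  have hΔ0 : A.valuation W.Δ ^ (p - 1) ≠ 0 := by
    rw [hΔ]
    exact pow_ne_zero _ (pow_ne_zero _ hvc0)
  rw [lam, map_div₀, map_mul, map_pow, map_pow, map_pow, hpA, hprod, one_pow, one_pow, one_mul,
    one_div]
  exact (one_lt_inv₀ (zero_lt_iff.2 hΔ0)).2 hΔ1

end Fermat.Agent.MAZ.End
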