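import Fermat.Agent.MAZ.End.LocPattern

/-! # MAZ / End / [LOC-B] -/

set_option autoImplicit false

namespace Fermat.Agent.MAZ.End

open WeierstrassCurve WeierstrassCurve.Affine WeierstrassCurve.Affine.Point
open Fermat.Agent.S05 Fermat.Agent.MAZ.Ell

variable {K : Type*} [Field K] [CharZero K] [DecidableEq K] {A : ValuationSubring K}
  {W : WeierstrassCurve.Affine K}

private theorem prod_reindex {M : Type*} [CommMonoid M] {p : ℕ} (hp : p.Prime) (hp2 : p ≠ 2)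
    (g : ℤ → M) (hper : ∀ i j : ℤ, (p : ℤ) ∣ i - j → g i = g j) (hneg : ∀ i, g (-i) = g i)
    {k₁ : ℤ} (hk₁ : ¬ (p : ℤ) ∣ k₁) :
    ∏ k ∈ Finset.Ico 1 p, g (k : ℤ) = (∏ m ∈ Finset.Ico 1 (p / 2 + 1), g ((m : ℤ) * k₁)) ^ 2 := by
  have hodd : p % 2 = 1 := hp.eq_two_or_odd.resolve_left hp2
  obtain ⟨h, hh⟩ : ∃ h, p = 2 * h + 1 := ⟨p / 2, by omega⟩
  have hh2 : p / 2 = h := by omega
  rw [hh2]
  have s1 : ∏ k ∈ Finset.Ico 1 p, g (k : ℤ) = (∏ m ∈ Finset.Ico 1 (h + 1), g (m : ℤ)) ^ 2 := by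
    rw [← Finset.prod_Ico_consecutive (fun k : ℕ => g (k : ℤ)) (show 1 ≤ h + 1 by omega)
      (show h + 1 ≤ p by omega), pow_two]
    congr 1
    have h1 := Finset.prod_Ico_reflect (fun k : ℕ => g (k : ℤ)) 1 (m := h + 1) (n := p) (by omega)
    have e1 : p + 1 - (h + 1) = h + 1 := by omega
    have e2 : p + 1 - 1 = p := by omega
    rw [e1, e2] at h1
    rw [← h1]
    refine Finset.prod_congr rfl fun j hj => ?_
    rw [Finset.mem_Ico] at hj
    rw [← hneg (j : ℤ)]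
    apply hper
    rw [Nat.cast_sub (by omega)]
    exact ⟨1, by ring⟩
  rw [s1]
  congr 1
  have : Fact p.Prime := ⟨hp⟩
  have ha : ((k₁ : ℤ) : ZMod p) ≠ 0 := by
    rw [Ne, ZMod.intCast_zmod_eq_zero_iff_dvd]
    exact hk₁
  have h2 := congrArg (fun s => (s.map (fun n : ℕ => g (n : ℤ))).prod)
    (ZMod.Ico_map_valMinAbs_natAbs_eq_Ico_map_id p _ ha)
  simp only [Multiset.map_map, Function.comp_def, hh2, Nat.succ_eq_add_one] at h2
  change ∏ x ∈ Finset.Ico 1 (h + 1), g (((((k₁ : ℤ) : ZMod p) * (x : ZMod p)).valMinAbs.natAbs : ℕ) : ℤ)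
    = ∏ x ∈ Finset.Ico 1 (h + 1), g (x : ℤ) at h2
  rw [← h2]
  refine Finset.prod_congr rfl fun x _ => ?_
  set z : ℤ := (((k₁ : ℤ) : ZMod p) * (x : ZMod p)).valMinAbs with hz
  have h3 : g ((z.natAbs : ℕ) : ℤ) = g z := by
    rcases Int.natAbs_eq z with h | h
    · rw [← h]
    · rw [← hneg, ← h]
  rw [h3]
  apply hper
  rw [← ZMod.intCast_eq_intCast_iff_dvd_sub, hz, ZMod.coe_valMinAbs]
  push_cast
  ring

private theorem prod_pow_two_mul {M : Type*} [CommMonoid M] (r : M) (h : ℕ) :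
    ∏ m ∈ Finset.Ico 1 (h + 1), r ^ (2 * m) = r ^ (h * (h + 1)) := by
  induction h with
  | zero => simp
  | succ h ih =>
    rw [Finset.prod_Ico_succ_top (by omega), ih, ← pow_add]
    congr 1
    ring

variable {x0 c b' : K}

/-- **[LOC-B]** `|Λ| > 1` ⟹ all `X_k` are units.
(Second case of `loc_pattern`, `r := v(X_{k₁})`, `r^p = v(c)² = v(Δ)`:  `v(Ψ(x_{m k₁})) = r^{2m}` for `2m < p` since
`v(b' X) = r^m > v(c) ≥ v(4c)` and `> v(4X²)`; `∏_{k=1}^{p-1} Ψ(x_k) = ∏_{m=1}^{(p-1)/2} Ψ(x_{m k₁})²` (reindex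
`k ↦ ± m k₁ mod p`, `xc_neg`) has valuation `r^{(p²-1)/2}`; so `v(Λ) = r^{p²-1} / r^{p(p-1)} = r^{p-1} < 1`.) -/
theorem units_of_one_lt_val_lam (H : ShiftData W x0 c b') (hx0 : x0 ∈ A)
    (hb' : A.valuation b' = 1) (hc0 : c ≠ 0) (hc1 : A.valuation c < 1) {p : ℕ} (hp : p.Prime)
    (hp2 : p ≠ 2) (hpA : A.valuation (p : K) = 1) {Q : W.Point} (hQ : addOrderOf Q = p)
    (hint : ∀ k : ℤ, ¬ (p : ℤ) ∣ k → xc (k • Q) ∈ A)
    (hlam : 1 < A.valuation (lam W p Q)) :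
    ∀ k : ℤ, ¬ (p : ℤ) ∣ k → A.valuation (xc (k • Q) - x0) = 1 := by
  rcases loc_pattern H hx0 hb' hc0 hc1 hp hp2 hQ hint with h | ⟨hlt, k₁, hk₁, hrp, hpat⟩
  · exact h
  exfalso
  have hodd : p % 2 = 1 := hp.eq_two_or_odd.resolve_left hp2
  obtain ⟨h, hh⟩ : ∃ h, p = 2 * h + 1 := ⟨p / 2, by omega⟩
  have hh2 : p / 2 = h := by omega
  have hh1 : 1 ≤ h := by
    have := hp.two_le; omega
  set r := A.valuation (xc (k₁ • Q) - x0) with hr
  have hr1 : r < 1 := hlt k₁ hk₁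
  have hvc0 : A.valuation c ≠ 0 := (Valuation.ne_zero_iff _).2 hc0
  have hr0 : r ≠ 0 := by
    intro h0
    rw [h0, zero_pow hp.ne_zero] at hrp
    exact pow_ne_zero 2 hvc0 hrp.symm
  have hrpos : 0 < r := zero_lt_iff.2 hr0
  have h4 : A.valuation (4 : K) ≤ 1 :=
    (A.valuation_le_one_iff _).2 (by exact_mod_cast natCast_mem A 4)
  -- the valuation of `Ψ`
  have hΨ : ∀ m : ℕ, 1 ≤ m → 2 * m < p →
      A.valuation (psiX W (xc (((m : ℤ) * k₁) • Q))) = r ^ (2 * m) := by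
    intro m hm1 hm2
    have hX := hpat m hm1 hm2
    set X := xc (((m : ℤ) * k₁) • Q) - x0 with hXdef
    have hrm0 : r ^ m ≠ 0 := pow_ne_zero _ hr0
    have hrm1 : r ^ m < 1 := pow_lt_one₀ zero_le hr1 (by omega)
    rw [psiX, H.psi, ← hXdef, map_mul, hX, two_mul, pow_add]
    congr 1
    have e1 : A.valuation (b' * X) = r ^ m := by rw [map_mul, hb', one_mul, hX]
    have e2 : A.valuation (4 * X ^ 2) < r ^ m := by
      rw [map_mul, map_pow, hX, pow_two]
      calc A.valuation (4 : K) * (r ^ m * r ^ m) ≤ 1 * (r ^ m * r ^ m) := mul_le_mul' h4 le_rfl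
        _ = r ^ m * r ^ m := one_mul _
        _ < 1 * r ^ m := mul_lt_mul_of_pos_right hrm1 (zero_lt_iff.2 hrm0)
        _ = r ^ m := one_mul _
    have e3 : A.valuation (4 * c) < r ^ m := by
      have h5 : A.valuation c < r ^ m := by
        by_contra hge
        have h6 : (r ^ m) ^ 2 ≤ A.valuation c ^ 2 := pow_le_pow_left₀ zero_le (not_lt.1 hge) 2
        rw [← hrp, ← pow_mul] at h6
        have h7 : r ^ p < r ^ (m * 2) := pow_lt_pow_right_of_lt_one₀ hrpos hr1 (by omega)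
        exact absurd h6 (not_le.2 h7)
      rw [map_mul]
      calc A.valuation (4 : K) * A.valuation c ≤ 1 * A.valuation c := mul_le_mul' h4 le_rfl
        _ = A.valuation c := one_mul _
        _ < r ^ m := h5
    have e4 : 4 * X ^ 2 + b' * X + 4 * c = b' * X + (4 * X ^ 2 + 4 * c) := by ring
    rw [e4, Valuation.map_add_eq_of_lt_left _ (by rw [e1]; exact Valuation.map_add_lt _ e2 e3), e1]
  -- the product
  have hzs : ∀ i j : ℤ, (p : ℤ) ∣ i - j → i • Q = j • Q := by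
    intro i j hij
    obtain ⟨t, ht⟩ := hij
    have e : i = j + t * p := by linarith
    rw [e, add_zsmul, mul_zsmul, natCast_zsmul, ← hQ, addOrderOf_nsmul_eq_zero, smul_zero,
      add_zero]
  have hprod : A.valuation (∏ k ∈ Finset.Ico 1 p, psiX W (xc (k • Q))) = r ^ (2 * (h * (h + 1))) := by
    rw [map_prod]
    have h1 := prod_reindex hp hp2 (fun k : ℤ => A.valuation (psiX W (xc (k • Q))))
      (fun i j hij => by rw [hzs i j hij]) (fun i => by rw [neg_zsmul, xc_neg]) hk₁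
    simp only [natCast_zsmul] at h1
    rw [h1, hh2, Finset.prod_congr rfl (fun m hm => hΨ m (Finset.mem_Ico.1 hm).1
      (by have := (Finset.mem_Ico.1 hm).2; omega)), prod_pow_two_mul, ← pow_mul]
    congr 1
    ring
  have h64 : A.valuation (64 * c) < 1 := by
    rw [map_mul, mul_comm]
    have h1 : A.valuation (64 : K) ≤ 1 :=
      (A.valuation_le_one_iff _).2 (by exact_mod_cast natCast_mem A 64)
    exact mul_lt_one_of_lt_of_le hc1 h1
  have hfac : A.valuation (b' ^ 2 - 64 * c) = 1 := by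
    have h1 : A.valuation (b' ^ 2) = 1 := by rw [map_pow, hb', one_pow]
    rw [Valuation.map_sub_eq_of_lt_left _ (by rw [h1]; exact h64), h1]
  have hΔ : A.valuation W.Δ = r ^ p := by
    rw [ShiftData_disc H, map_mul, hfac, mul_one, map_pow, hrp]
  have hfin : A.valuation (lam W p Q) = r ^ (p - 1) := by
    rw [lam, map_div₀, map_mul, map_pow, map_pow, map_pow, hpA, hprod, hΔ, one_pow, one_mul,
      ← pow_mul, ← pow_mul, div_eq_iff (pow_ne_zero _ hr0), ← pow_add]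
    congr 1
    have e1 : p - 1 = 2 * h := by omega
    rw [e1, hh]
    ring
  rw [hfin] at hlam
  exact absurd (pow_le_one₀ zero_le hr1.le) (not_le.2 hlam)

end Fermat.Agent.MAZ.End
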