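import Fermat.Agent.MAZ.End.LocBasic

/-! # MAZ / End / [LOC-D]  (recipe: header of `LocBasic.lean`) -/

set_option autoImplicit false

namespace Fermat.Agent.MAZ.End

open WeierstrassCurve WeierstrassCurve.Affine WeierstrassCurve.Affine.Point
open Fermat.Agent.S05 Fermat.Agent.MAZ.Ell

section aux

variable {G : Type*} [AddCommGroup G] [LinearOrder G] [IsOrderedAddMonoid G]

private lemma lp_aux1 {f x : G} (hf : 0 ≤ f) (hx : 0 < x) : f + 2 • x ≠ x := by
  grind

private lemma lp_aux2 {f x : G} (hf : 0 ≤ f) (hx : 0 < x) : min (f + 2 • x) x = x := by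
  grind

private lemma lp_aux3 {f x N g : G} (hf : 0 ≤ f) (h : min x (f + N) ≤ g) : min x N ≤ g := by
  grind

private lemma lp_aux4 {f x N : G} (hf : 0 ≤ f) (h : x < N) : x ≠ f + N ∧ min x (f + N) = x := by
  grind

end aux

/-- `S13.mult_val_gen` with both conclusions of `S05.comb_gen`. -/
theorem mult_val_pattern {K : Type*} [Field K] {Γ₀ : Type*} [LinearOrderedCommGroupWithZero Γ₀]
    (v : Valuation K Γ₀) (p : ℕ) (hp : p.Prime) (hp2 : p ≠ 2) (X : ℤ → K) (c b' : K)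
    (hc0 : c ≠ 0) (hb' : v b' = 1) (h2 : v (2 : K) ≤ 1) (n2 : (2 : K) ≠ 0)
    (hX0 : ∀ j : ℤ, ¬ (p : ℤ) ∣ j → X j ≠ 0)
    (hX1 : ∀ j : ℤ, ¬ (p : ℤ) ∣ j → v (X j) < 1)
    (hneg : ∀ i j : ℤ, (p : ℤ) ∣ i + j → X i = X j)
    (hmax : ∀ j : ℤ, ¬ (p : ℤ) ∣ j → v (X j) ≤ v (X 1))
    (hne : ∀ i j : ℤ, ¬ (p : ℤ) ∣ i → ¬ (p : ℤ) ∣ j → ¬ (p : ℤ) ∣ i + j → ¬ (p : ℤ) ∣ i - j →
      X i ≠ X j)
    (hR : ∀ i j : ℤ, ¬ (p : ℤ) ∣ i → ¬ (p : ℤ) ∣ j → ¬ (p : ℤ) ∣ i + j → ¬ (p : ℤ) ∣ i - j →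
      X (i + j) * X (i - j) * (X i - X j) ^ 2 = (X i * X j - c) ^ 2)
    (hD0 : ∀ j : ℤ, ¬ (p : ℤ) ∣ j → 4 * X j ^ 2 + b' * X j + 4 * c ≠ 0)
    (hD : ∀ j : ℤ, ¬ (p : ℤ) ∣ j →
      X (2 * j) * (X j * (4 * X j ^ 2 + b' * X j + 4 * c)) = (X j ^ 2 - c) ^ 2) :
    v (X 1) ^ p = v c ^ 2 ∧ ∀ m : ℕ, 1 ≤ m → 2 * m < p → v (X (m : ℤ)) = v (X 1) ^ m := by
  have hpi : Prime (p : ℤ) := Nat.prime_iff_prime_int.1 hp
  have hp3 : 3 ≤ p := by
    have := hp.two_le; omega
  have h1nd : ¬ (p : ℤ) ∣ 1 := by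
    intro h
    have := Int.le_of_dvd (by norm_num) h
    omega
  have h2nd : ∀ j : ℤ, ¬ (p : ℤ) ∣ j → ¬ (p : ℤ) ∣ 2 * j := by
    intro j hj h
    rcases hpi.dvd_or_dvd h with h | h
    · have := Int.le_of_dvd (by norm_num) h
      omega
    · exact hj h
  have h4 : v (4 : K) ≤ 1 := by
    have : (4 : K) = 2 * 2 := by norm_num
    rw [this, map_mul]
    exact mul_le_one' h2 h2
  have n4 : (4 : K) ≠ 0 := by
    have : (4 : K) = 2 * 2 := by norm_num
    rw [this]; exact mul_ne_zero n2 n2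
  have nb : b' ≠ 0 := (v.ne_zero_iff).1 (by rw [hb']; exact one_ne_zero)
  have o4 : 0 ≤ ord v (4 : K) := by
    rw [← ord_one (v := v), ord_le_iff one_ne_zero n4, map_one]; exact h4
  have ob : ord v b' = 0 := (ord_eq_zero_iff nb).2 hb'
  have key := (comb_gen p hp hp2 (ord v c) (fun j => ord v (X j))
    (fun j hj => (ord_pos_iff (hX0 j hj)).2 (hX1 j hj))
    (fun i j hij => by rw [hneg i j hij])
    (fun j hj => (ord_le_iff (hX0 1 h1nd) (hX0 j hj)).2 (hmax j hj))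
    (by
      intro i j hi hj hij hij'
      have e := hR i j hi hj hij hij'
      have d0 : X i - X j ≠ 0 := sub_ne_zero.2 (hne i j hi hj hij hij')
      have l0 : X (i + j) * X (i - j) * (X i - X j) ^ 2 ≠ 0 :=
        mul_ne_zero (mul_ne_zero (hX0 _ hij) (hX0 _ hij')) (pow_ne_zero 2 d0)
      have r0 : X i * X j - c ≠ 0 := by
        intro h; rw [e, h] at l0; exact l0 (by simp)
      have m0 : X i * X j ≠ 0 := mul_ne_zero (hX0 i hi) (hX0 j hj)
      refine ⟨ord v (X i - X j), ord v (X i * X j - c), ?_, ?_, ?_, ?_, ?_⟩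
      · have := congrArg (ord v) e
        rwa [ord_mul (mul_ne_zero (hX0 _ hij) (hX0 _ hij')) (pow_ne_zero 2 d0),
          ord_mul (hX0 _ hij) (hX0 _ hij'), ord_pow d0, ord_pow r0] at this
      · exact min_le_ord_sub (hX0 i hi) (hX0 j hj) d0
      · intro h; exact (ord_sub_of_ne (hX0 i hi) (hX0 j hj) h).2
      · rw [← ord_mul (hX0 i hi) (hX0 j hj)]
        exact min_le_ord_sub m0 hc0 r0
      · rw [← ord_mul (hX0 i hi) (hX0 j hj)]
        intro h; exact (ord_sub_of_ne m0 hc0 h).2)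
    (by
      intro j hj
      have e := hD j hj
      have x0 := hX0 j hj
      have g0 := hD0 j hj
      have l0 : X (2 * j) * (X j * (4 * X j ^ 2 + b' * X j + 4 * c)) ≠ 0 :=
        mul_ne_zero (hX0 _ (h2nd j hj)) (mul_ne_zero x0 g0)
      have r0 : X j ^ 2 - c ≠ 0 := by
        intro h; rw [e, h] at l0; exact l0 (by simp)
      have s0 : X j ^ 2 ≠ 0 := pow_ne_zero 2 x0
      have hpos : 0 < ord v (X j) := (ord_pos_iff x0).2 (hX1 j hj)
      -- `ord (4 X² + b' X) = ord X`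
      have t1 : ord v (4 * X j ^ 2) = ord v (4 : K) + 2 • ord v (X j) := by
        rw [ord_mul n4 s0, ord_pow x0]
      have t2 : ord v (b' * X j) = ord v (X j) := by
        rw [ord_mul nb x0, ob, zero_add]
      have t3 : ord v (4 * c) = ord v (4 : K) + ord v c := by
        rw [ord_mul n4 hc0]
      have t12ne : ord v (4 * X j ^ 2) ≠ ord v (b' * X j) := by
        rw [t1, t2]; exact lp_aux1 o4 hpos
      obtain ⟨u0, u1⟩ := ord_add_of_ne (mul_ne_zero n4 s0) (mul_ne_zero nb x0) t12ne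
      have u2 : ord v (4 * X j ^ 2 + b' * X j) = ord v (X j) := by
        rw [u1, t1, t2]; exact lp_aux2 o4 hpos
      refine ⟨ord v (X j ^ 2 - c), ord v (4 * X j ^ 2 + b' * X j + 4 * c), ?_, ?_, ?_, ?_, ?_⟩
      · have := congrArg (ord v) e
        rw [ord_mul (hX0 _ (h2nd j hj)) (mul_ne_zero x0 g0), ord_mul x0 g0, ord_pow r0] at this
        rw [← this, add_assoc]
      · rw [← ord_pow x0]
        exact min_le_ord_sub s0 hc0 r0
      · rw [← ord_pow x0]
        intro h; exact (ord_sub_of_ne s0 hc0 h).2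
      · have := min_le_ord_add (v := v) u0 (mul_ne_zero n4 hc0) g0
        rw [u2, t3] at this
        exact lp_aux3 o4 this
      · intro h
        obtain ⟨w1, w2⟩ := lp_aux4 o4 h
        have := (ord_add_of_ne (v := v) u0 (mul_ne_zero n4 hc0) (by rw [u2, t3]; exact w1)).2
        rw [this, u2, t3, w2]))
  have x1 := hX0 1 h1nd
  refine ⟨?_, ?_⟩
  · have : ord v (X 1 ^ p) = ord v (c ^ 2) := by
      rw [ord_pow x1, ord_pow hc0]; exact key.1
    rw [ord_eq_iff (pow_ne_zero p x1) (pow_ne_zero 2 hc0), map_pow, map_pow] at this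
    exact this
  · intro m hm1 hm2
    have hmnd : ¬ (p : ℤ) ∣ (m : ℤ) := by
      intro h
      have := Nat.le_of_dvd (by omega) (Int.natCast_dvd_natCast.1 h)
      omega
    have : ord v (X (m : ℤ)) = ord v (X 1 ^ m) := by
      rw [ord_pow x1]; exact key.2 m hm1 hm2
    rw [ord_eq_iff (hX0 _ hmnd) (pow_ne_zero m x1), map_pow] at this
    exact this

variable {K : Type*} [Field K] [CharZero K] [DecidableEq K] {A : ValuationSubring K}
  {W : WeierstrassCurve.Affine K}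

variable {x0 c b' : K}

omit [CharZero K] [DecidableEq K] in
/-- a factor of a unit is a unit. -/
theorem val_eq_one_of_mul {x y u : K} (h : x * y = u) (hu : A.valuation u = 1)
    (hx : A.valuation x ≤ 1) (hy : A.valuation y ≤ 1) : A.valuation x = 1 := by
  refine le_antisymm hx ?_
  rw [← hu, ← h, map_mul]
  exact mul_le_of_le_one_right' hy

/-- **[LOC-D] (i)** if `X_P` is a unit, so are the `X_{nP}`, `1 ≤ n ≤ p - 1`. -/
theorem val_unit_nsmul (H : ShiftData W x0 c b') (hx0 : x0 ∈ A) (hb' : b' ∈ A)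
    (hc1 : A.valuation c < 1) {p : ℕ} (hp : p.Prime) {P : W.Point}
    (hP : P ≠ 0) (hpP : p • P = 0) (hint : ∀ k : ℤ, ¬ (p : ℤ) ∣ k → xc (k • P) ∈ A)
    (h1 : A.valuation (xc P - x0) = 1) (n : ℕ) (hn1 : 1 ≤ n) (hn : n ≤ p - 1) :
    A.valuation (xc ((n : ℤ) • P) - x0) = 1 := by
  have le1 : ∀ {z : K}, z ∈ A → A.valuation z ≤ 1 := fun hz => (A.valuation_le_one_iff _).2 hz
  have m4 : (4 : K) ∈ A := by exact_mod_cast natCast_mem A 4
  have hcA : c ∈ A := (A.valuation_le_one_iff _).1 hc1.le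
  have hz := zsmul_eq_zero_iff_dvd hp hP hpP
  have hnd : ∀ m : ℕ, 1 ≤ m → m ≤ p - 1 → ¬ (p : ℤ) ∣ (m : ℤ) := by
    intro m hm1 hm h
    have := Nat.le_of_dvd (by omega) (Int.natCast_dvd_natCast.1 h)
    omega
  have hXA : ∀ m : ℕ, 1 ≤ m → m ≤ p - 1 → xc ((m : ℤ) • P) - x0 ∈ A := fun m hm1 hm =>
    A.sub_mem (hint _ (hnd m hm1 hm)) hx0
  have hne0 : ∀ m : ℕ, 1 ≤ m → m ≤ p - 1 → (m : ℤ) • P ≠ 0 := fun m hm1 hm h =>
    hnd m hm1 hm ((hz _).1 h)
  induction n, hn1 using Nat.le_induction with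
  | base => simpa using h1
  | succ n hn1 ih =>
    have ihn := ih (by omega)
    have hX1A : xc P - x0 ∈ A := (A.valuation_le_one_iff _).1 h1.le
    rcases Nat.eq_or_lt_of_le hn1 with rfl | hn2
    · -- duplication
      have h2P : P + P ≠ 0 := by
        have := hne0 2 (by norm_num) (by omega)
        rwa [Nat.cast_ofNat, two_zsmul] at this
      have e := H.dbl hP h2P
      have e2 : (((1 + 1 : ℕ) : ℤ)) • P = P + P := by
        push_cast
        exact two_zsmul P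
      rw [e2]
      refine val_eq_one_of_mul e ?_ (le1 (A.sub_mem ?_ hx0)) (le1 ?_)
      · rw [map_pow, Valuation.map_sub_eq_of_lt_left _ (by rw [map_pow, h1, one_pow]; exact hc1),
          map_pow, h1, one_pow, one_pow]
      · rw [← e2]
        exact hint _ (hnd _ (by norm_num) hn)
      · exact A.mul_mem _ _ hX1A (A.add_mem _ _ (A.add_mem _ _ (A.mul_mem _ _ m4 (pow_mem hX1A 2))
          (A.mul_mem _ _ hb' hX1A)) (A.mul_mem _ _ m4 hcA))
    · -- addition
      have ea : (n : ℤ) • P + P = ((n + 1 : ℕ) : ℤ) • P := by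
        push_cast
        rw [add_smul, one_smul]
      have es : (n : ℤ) • P - P = ((n - 1 : ℕ) : ℤ) • P := by
        rw [Nat.cast_sub hn1]
        push_cast
        rw [sub_smul, one_smul]
      have hx : xc ((n : ℤ) • P) ≠ xc P := by
        apply xc_ne_of_add_sub_ne_zero (hne0 n hn1 (by omega)) hP
        · rw [ea]; exact hne0 _ (by omega) hn
        · rw [es]; exact hne0 _ (by omega) (by omega)
      have e := H.prod (hne0 n hn1 (by omega)) hP hx
      rw [ea, es, mul_assoc] at e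
      refine val_eq_one_of_mul e ?_ (le1 (hXA _ (by omega) hn)) (le1 ?_)
      · rw [map_pow, Valuation.map_sub_eq_of_lt_left _
          (by rw [map_mul, ihn, h1, one_mul]; exact hc1), map_mul, ihn, h1, one_mul, one_pow]
      · exact A.mul_mem _ _ (hXA _ (by omega) (by omega))
          (pow_mem (A.sub_mem (hXA n hn1 (by omega)) hX1A) 2)

/-- **[LOC-D]** dichotomy and pattern of the valuations of `X_k = x(kQ) - x0` at a multiplicative place. -/
theorem loc_pattern (H : ShiftData W x0 c b') (hx0 : x0 ∈ A) (hb' : A.valuation b' = 1)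
    (hc0 : c ≠ 0) (hc1 : A.valuation c < 1) {p : ℕ} (hp : p.Prime) (hp2 : p ≠ 2) {Q : W.Point}
    (hQ : addOrderOf Q = p) (hint : ∀ k : ℤ, ¬ (p : ℤ) ∣ k → xc (k • Q) ∈ A) :
    (∀ k : ℤ, ¬ (p : ℤ) ∣ k → A.valuation (xc (k • Q) - x0) = 1) ∨
    ((∀ k : ℤ, ¬ (p : ℤ) ∣ k → A.valuation (xc (k • Q) - x0) < 1) ∧
      ∃ k₁ : ℤ, ¬ (p : ℤ) ∣ k₁ ∧
        A.valuation (xc (k₁ • Q) - x0) ^ p = A.valuation c ^ 2 ∧
        ∀ m : ℕ, 1 ≤ m → 2 * m < p →
          A.valuation (xc (((m : ℤ) * k₁) • Q) - x0) = A.valuation (xc (k₁ • Q) - x0) ^ m) := by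
  have le1 : ∀ {z : K}, z ∈ A → A.valuation z ≤ 1 := fun hz => (A.valuation_le_one_iff _).2 hz
  have hp3 : 3 ≤ p := by
    have := hp.two_le; omega
  have hpi : Prime (p : ℤ) := Nat.prime_iff_prime_int.1 hp
  have hpQ : p • Q = 0 := by rw [← hQ]; exact addOrderOf_nsmul_eq_zero Q
  have hQ0 : Q ≠ 0 := by
    intro h
    rw [h, addOrderOf_zero] at hQ
    omega
  have hz := zsmul_eq_zero_iff_dvd hp hQ0 hpQ
  have hpj : ∀ j : ℤ, p • (j • Q) = 0 := fun j => by rw [smul_comm, hpQ, smul_zero]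
  have hb'A : b' ∈ A := (A.valuation_le_one_iff _).1 hb'.le
  by_cases hex : ∃ i : ℤ, ¬ (p : ℤ) ∣ i ∧ A.valuation (xc (i • Q) - x0) = 1
  · left
    obtain ⟨i, hi, hXi⟩ := hex
    intro k hk
    have hP0 : i • Q ≠ 0 := fun h => hi ((hz i).1 h)
    obtain ⟨a, b, hab⟩ : IsCoprime (p : ℤ) i := (Prime.coprime_iff_not_dvd hpi).2 hi
    have hkb : k • Q = (k * b) • (i • Q) := by
      have h1 : k = k * a * p + k * b * i := by linear_combination -k * hab
      conv_lhs => rw [h1]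
      rw [add_smul, mul_smul (k * a), natCast_zsmul, hpQ, smul_zero, zero_add, mul_smul (k * b)]
    have hkbnd : ¬ (p : ℤ) ∣ k * b := by
      intro h
      apply hk
      rw [← hz, hkb, ← mul_smul]
      exact (hz _).2 (Dvd.dvd.mul_right h i)
    obtain ⟨m, hm1, hm2, hm⟩ := exists_nat_rep hp (hpj i) (k * b) hkbnd
    rw [hkb, hm, ← natCast_zsmul]
    refine val_unit_nsmul H hx0 hb'A hc1 hp hP0 (hpj i) ?_ hXi m hm1 hm2
    intro l hl
    rw [← mul_smul]
    refine hint _ fun h => ?_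
    rcases hpi.dvd_or_dvd h with h | h
    · exact hl h
    · exact hi h
  · right
    have hlt : ∀ j : ℤ, ¬ (p : ℤ) ∣ j → A.valuation (xc (j • Q) - x0) < 1 := by
      intro j hj
      refine lt_of_le_of_ne (le1 (A.sub_mem (hint j hj) hx0)) ?_
      intro h
      exact hex ⟨j, hj, h⟩
    refine ⟨hlt, ?_⟩
    obtain ⟨j0, hj0, hmax⟩ := Finset.exists_max_image (Finset.Icc 1 (p - 1))
      (fun j : ℕ => A.valuation (xc (j • Q) - x0)) ⟨1, by simp; omega⟩
    rw [Finset.mem_Icc] at hj0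
    have hj0nd : ¬ (p : ℤ) ∣ (j0 : ℤ) := by
      intro h
      have := Nat.le_of_dvd (by omega) (Int.natCast_dvd_natCast.1 h)
      omega
    refine ⟨(j0 : ℤ), hj0nd, ?_⟩
    obtain ⟨P', hP'⟩ : ∃ P', P' = (j0 : ℤ) • Q := ⟨_, rfl⟩
    have hP'0 : P' ≠ 0 := by rw [hP']; exact fun h => hj0nd ((hz _).1 h)
    have hpP' : p • P' = 0 := by rw [hP']; exact hpj _
    have hz' := zsmul_eq_zero_iff_dvd hp hP'0 hpP'
    have hmulnd : ∀ j : ℤ, ¬ (p : ℤ) ∣ j → ¬ (p : ℤ) ∣ j * j0 := by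
      intro j hj h
      rcases hpi.dvd_or_dvd h with h | h
      · exact hj h
      · exact hj0nd h
    have h2nd : ∀ j : ℤ, ¬ (p : ℤ) ∣ j → ¬ (p : ℤ) ∣ 2 * j := by
      intro j hj h
      rcases hpi.dvd_or_dvd h with h | h
      · have := Int.le_of_dvd (by norm_num) h
        omega
      · exact hj h
    have hsm : ∀ j : ℤ, j • P' = (j * j0) • Q := fun j => by rw [hP', mul_smul]
    have hne0 : ∀ j : ℤ, ¬ (p : ℤ) ∣ j → j • P' ≠ 0 := fun j hj h => hj ((hz' j).1 h)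
    have heta : ∀ j : ℤ, ¬ (p : ℤ) ∣ j →
        2 * yc (j • P') + W.a₁ * xc (j • P') + W.a₃ ≠ 0 := by
      intro j hj h
      have h1 := (add_self_eq_zero_iff (hne0 j hj)).2 h
      rw [← two_zsmul, smul_smul] at h1
      exact h2nd j hj ((hz' _).1 h1)
    have hprod : ∀ j : ℤ, ¬ (p : ℤ) ∣ j →
        (xc (j • P') - x0) * (4 * (xc (j • P') - x0) ^ 2 + b' * (xc (j • P') - x0) + 4 * c) ≠ 0 := by
      intro j hj
      rw [← H.eta_sq (hne0 j hj)]
      exact pow_ne_zero 2 (heta j hj)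
    have hxne : ∀ i j : ℤ, ¬ (p : ℤ) ∣ i → ¬ (p : ℤ) ∣ j → ¬ (p : ℤ) ∣ i + j → ¬ (p : ℤ) ∣ i - j →
        xc (i • P') ≠ xc (j • P') := by
      intro i j hi hj hij hij'
      apply xc_ne_of_add_sub_ne_zero (hne0 i hi) (hne0 j hj)
      · rw [← add_smul]; exact hne0 _ hij
      · rw [← sub_smul]; exact hne0 _ hij'
    have m2 : (2 : K) ∈ A := by exact_mod_cast natCast_mem A 2
    have key := mult_val_pattern A.valuation p hp hp2 (fun j => xc (j • P') - x0) c b' hc0 hb'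
      (le1 m2) two_ne_zero
      (fun j hj => left_ne_zero_of_mul (hprod j hj))
      (fun j hj => by
        rw [hsm]; exact hlt _ (hmulnd j hj))
      (fun i j hij => by
        have : i • P' = -(j • P') := by
          rw [eq_neg_iff_add_eq_zero, ← add_smul]; exact (hz' _).2 hij
        rw [this, xc_neg])
      (fun j hj => by
        obtain ⟨m, hm1, hm2, hm⟩ := exists_nat_rep hp hpQ (j * j0) (hmulnd j hj)
        rw [hsm, hm, one_smul, hP', natCast_zsmul]
        exact hmax m (by rw [Finset.mem_Icc]; exact ⟨hm1, hm2⟩))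
      (fun i j hi hj hij hij' h => hxne i j hi hj hij hij' (by simpa using h))
      (fun i j hi hj hij hij' => by
        rw [add_smul, sub_smul]
        exact H.prod (hne0 i hi) (hne0 j hj) (hxne i j hi hj hij hij'))
      (fun j hj => right_ne_zero_of_mul (hprod j hj))
      (fun j hj => by
        have h1 : (2 * j) • P' = j • P' + j • P' := by rw [two_mul, add_smul]
        rw [h1]
        refine H.dbl (hne0 j hj) ?_
        rw [← h1]; exact hne0 _ (h2nd j hj))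
    simp only [one_smul] at key
    rw [← hP']
    refine ⟨key.1, fun m hm1 hm2 => ?_⟩
    rw [← hsm]
    exact key.2 m hm1 hm2

end Fermat.Agent.MAZ.End
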