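import Fermat.Agent.S13.Glue
import Fermat.Agent.S13.Minkowski
import Fermat.Agent.S13.WPA
import Fermat.Agent.S05.Integral
import Fermat.Agent.MAZ.Ell.Curve

/-!
# MAZ / End / [RAT]  rationality of `∏ Ψ(x(kQ))`, integrality criterion

* `prod_reindex`: `k ↦ (k * c) % p` is a bijection of `Finset.Ico 1 p` (`p` prime, `p ∤ c`) and `(k * c) • Q = ((k * c) % p) • Q`
  since `p • Q = 0`   (`Finset.prod_bij` / `Finset.prod_nbij'`).
* `exists_rat_prod`: `σ (∏) = ∏ Ψ(σ x(kQ))` (the coefficients `b_i` of `EK P` are rational: `S13.EK_b₂` ..), `S13.xc_smul`,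
  `σ • (k • Q) = k • σ • Q = (k * c) • Q` (`smul_comm`/`map_nsmul`; `p ∤ c` since `σ • Q ≠ 0`), `prod_reindex`; an element of `Kb`
  fixed by all `σ` is rational (`IsGalois.mem_bot_iff_fixed` / `IsGalois.fixedField_top`, as in `S13/WPB.lean`).
* `exists_int_of_forall_mem`: `r = n/d` reduced; a prime `ℓ ∣ d` gives `v(d) < 1 = v(n)` (`S05.valuation_intCast_lt_one`,
  `S05.valuation_intCast_eq_one`), so `r ∉ A`.
-/

set_option autoImplicit false

namespace Fermat.Agent.MAZ.End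

open WeierstrassCurve WeierstrassCurve.Affine WeierstrassCurve.Affine.Point
open FreyPackage
open Fermat.Agent.S05 Fermat.Agent.S13 Fermat.Agent.MAZ.Ell

theorem prod_reindex {G M : Type*} [AddCommGroup G] [CommMonoid M] {p : ℕ} (hp : p.Prime) {Q : G}
    (hQ : p • Q = 0) (F : G → M) {c : ℕ} (hc : ¬ p ∣ c) :
    ∏ k ∈ Finset.Ico 1 p, F ((k * c) • Q) = ∏ k ∈ Finset.Ico 1 p, F (k • Q) := by
  classical
  have hmod : ∀ n : ℕ, (n % p) • Q = n • Q := by
    intro n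
    conv_rhs => rw [← Nat.div_add_mod n p, add_nsmul, mul_nsmul, hQ, smul_zero, zero_add]
  have hinj : Set.InjOn (fun k => (k * c) % p) (Finset.Ico 1 p : Finset ℕ) := by
    intro k hk k' hk' h
    rw [Finset.coe_Ico, Set.mem_Ico] at hk hk'
    have h1 : k * c ≡ k' * c [MOD p] := h
    have hcop : Nat.gcd p c = 1 := (Nat.Prime.coprime_iff_not_dvd hp).2 hc
    have h2 : k ≡ k' [MOD p] := Nat.ModEq.cancel_right_of_coprime hcop h1
    exact Nat.ModEq.eq_of_lt_of_lt h2 hk.2 hk'.2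
  have himg : (Finset.Ico 1 p).image (fun k => (k * c) % p) = Finset.Ico 1 p := by
    apply Finset.eq_of_subset_of_card_le
    · intro j hj
      obtain ⟨k, hk, rfl⟩ := Finset.mem_image.1 hj
      rw [Finset.mem_Ico] at hk ⊢
      refine ⟨?_, Nat.mod_lt _ hp.pos⟩
      rw [Nat.one_le_iff_ne_zero]
      intro h0
      have hd : p ∣ k * c := Nat.dvd_of_mod_eq_zero h0
      rcases (Nat.Prime.dvd_mul hp).1 hd with h | h
      · exact absurd (Nat.le_of_dvd (by omega) h) (by omega)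
      · exact hc h
    · rw [Finset.card_image_of_injOn hinj]
  conv_rhs => rw [← himg, Finset.prod_image hinj]
  exact Finset.prod_congr rfl fun k _ => by rw [hmod]

theorem exists_rat_prod (P : FreyPackage) (Q : (EK P).Point) (hQ : addOrderOf Q = P.p)
    (hstab : ∀ σ : Gl, ∃ k : ℕ, σ • Q = k • Q) :
    ∃ r : ℚ, (r : Kb) = ∏ k ∈ Finset.Ico 1 P.p, psiX (EK P) (xc (k • Q)) := by
  set Pi0 : Kb := ∏ k ∈ Finset.Ico 1 P.p, psiX (EK P) (xc (k • Q)) with hPi0
  have hpQ : P.p • Q = 0 := by rw [← hQ]; exact addOrderOf_nsmul_eq_zero Q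
  have hQ0 : Q ≠ 0 := by
    intro h
    rw [h, addOrderOf_zero] at hQ
    exact P.pp.one_lt.ne hQ
  have hpsi : ∀ (σ : Gl) (x : Kb), σ (psiX (EK P) x) = psiX (EK P) (σ x) := by
    intro σ x
    simp only [psiX, EK_b₂, EK_b₄, EK_b₆, map_add, map_mul, map_pow, map_intCast, map_ofNat]
  have hfix : ∀ σ : Gl, σ Pi0 = Pi0 := by
    intro σ
    obtain ⟨c, hc⟩ := hstab σ
    have hpc : ¬ P.p ∣ c := by
      intro hd
      obtain ⟨e, rfl⟩ := hd
      rw [mul_comm, mul_nsmul', hpQ, nsmul_zero] at hc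
      apply hQ0
      have := congrArg (fun R => σ⁻¹ • R) hc
      simpa using this
    rw [hPi0, map_prod, ← prod_reindex P.pp hpQ (fun R => psiX (EK P) (xc R)) hpc]
    refine Finset.prod_congr rfl fun k _ => ?_
    rw [hpsi, ← xc_smul]
    congr 2
    have h1 : σ • (k • Q) = k • (σ • Q) :=
      map_nsmul (DistribSMul.toAddMonoidHom (EK P).Point σ) k Q
    rw [h1, hc, mul_nsmul']
  have hmem : Pi0 ∈ (⊥ : IntermediateField ℚ Kb) := by
    rw [InfiniteGalois.mem_bot_iff_fixed]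
    exact hfix
  obtain ⟨r, hr⟩ := IntermediateField.mem_bot.1 hmem
  exact ⟨r, by rw [← hr]; rfl⟩

theorem exists_int_of_forall_mem (r : ℚ)
    (h : ∀ ℓ : ℕ, ℓ.Prime → ∃ A : ValuationSubring Kb, A.LiesOverPrime ℓ ∧ (r : Kb) ∈ A) :
    ∃ n : ℤ, r = n := by
  by_cases hd : r.den = 1
  · exact ⟨r.num, ((Rat.den_eq_one_iff r).1 hd).symm⟩
  exfalso
  obtain ⟨ℓ, hℓ, hℓd⟩ := Nat.exists_prime_and_dvd hd
  obtain ⟨A, hA, hr⟩ := h ℓ hℓ
  have hqA : A.valuation ((ℓ : ℕ) : Kb) < 1 := (ValuationSubring.mem_nonunits_iff A).1 hA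
  have hnum : ¬ (ℓ : ℤ) ∣ r.num := by
    intro hn
    have h1 : ℓ ∣ r.num.natAbs := Int.natCast_dvd.1 hn
    have h2 := Nat.dvd_gcd h1 hℓd
    rw [r.reduced] at h2
    exact hℓ.one_lt.ne' (Nat.dvd_one.1 h2)
  have v1 : A.valuation ((r.num : ℤ) : Kb) = 1 := valuation_intCast_eq_one A hℓ hqA hnum
  have v2 : A.valuation (((r.den : ℕ) : ℤ) : Kb) < 1 :=
    valuation_intCast_lt_one A hqA (by exact_mod_cast hℓd)
  have hr' : A.valuation (r : Kb) ≤ 1 := (A.valuation_le_one_iff _).2 hr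
  have hden0 : ((r.den : ℕ) : Kb) ≠ 0 := Nat.cast_ne_zero.2 r.den_nz
  have e : (r : Kb) * ((r.den : ℕ) : Kb) = ((r.num : ℤ) : Kb) := by
    rw [Rat.cast_def, div_mul_cancel₀ _ hden0]
  have h3 := congrArg A.valuation e
  rw [map_mul, v1] at h3
  rw [Int.cast_natCast] at v2
  have h4 : A.valuation (r : Kb) * A.valuation ((r.den : ℕ) : Kb) < 1 :=
    mul_lt_one_of_le_of_lt₀ hr' v2
  rw [h3] at h4
  exact lt_irrefl _ h4

end Fermat.Agent.MAZ.End
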