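import Fermat.Agent.MAZ.End.FreyInv

/-!
# MAZ / End / [SIZE]  the final inequality

`s = |α|`, `t = |β|`, `u = |γ|` (`α = a^p`, ..., `γ = α + β`), `m := max s t`, `n := min s t ≥ 1`.
* `2 s t u ≥ m²`:  if `2 n ≥ m` then `s t u ≥ m n ≥ m²/2` (`u ≥ 1`); otherwise `u ≥ m - n > m/2` and `s t u ≥ m u`.
* `m ≥ t ≥ 2^p ≥ 2^17` (`2 ∣ b`, `b ≠ 0`), `p < 2^p ≤ m`.
* `D = (s t u)²/256 ≥ m⁴/1024 ≥ m³`,  `0 < c₄ ≤ 3 m²`, `c₄³ ≤ 27 m⁶`.
* (i) `p¹² 2⁵⁵ ≤ m¹² m⁴ < m⁴⁸ ≤ D¹⁶ ≤ D^(p-1)`;   (ii) `p¹² 2⁵⁵ c₄³ ≤ m¹² m⁴ m m⁶ < m⁵¹ ≤ D¹⁷ ≤ D^p`.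
* `min 1 |c₄³/D|⁻¹ = min 1 (D/c₄³)`; (i) gives `p¹²/D^(p-1) < 2⁻⁵⁵`, (ii) gives `p¹²/D^(p-1) < 2⁻⁵⁵ D/c₄³`.
-/

set_option autoImplicit false

namespace Fermat.Agent.MAZ.End

theorem size_core (p : ℕ) (hp : 17 ≤ p) (m D c : ℝ) (hm : (2 : ℝ) ^ 17 ≤ m) (hpm : (p : ℝ) ≤ m)
    (hD : m ^ 3 ≤ D) (hc0 : 0 < c) (hc : c ≤ 3 * m ^ 2) :
    (p : ℝ) ^ 12 / D ^ (p - 1) < (2 : ℝ)⁻¹ ^ 55 * min 1 (|c ^ 3 / D|)⁻¹ := by
  have hm0 : 0 < m := lt_of_lt_of_le (by positivity) hm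
  have hm1 : 1 ≤ m := le_trans (by norm_num) hm
  have hD0 : 0 < D := lt_of_lt_of_le (by positivity) hD
  have hD1 : 1 ≤ D := le_trans (one_le_pow₀ hm1) hD
  have hp0 : (0 : ℝ) ≤ p := Nat.cast_nonneg p
  -- p^12 * 2^55 ≤ m^16
  have h1 : (p : ℝ) ^ 12 * 2 ^ 55 ≤ m ^ 16 := by
    have a1 : (p : ℝ) ^ 12 ≤ m ^ 12 := pow_le_pow_left₀ hp0 hpm 12
    have a2 : (2 : ℝ) ^ 55 ≤ m ^ 4 := by
      calc (2 : ℝ) ^ 55 ≤ ((2 : ℝ) ^ 17) ^ 4 := by norm_num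
        _ ≤ m ^ 4 := pow_le_pow_left₀ (by positivity) hm 4
    calc (p : ℝ) ^ 12 * 2 ^ 55 ≤ m ^ 12 * m ^ 4 := mul_le_mul a1 a2 (by positivity) (by positivity)
      _ = m ^ 16 := by ring
  have hmlt : ∀ i j : ℕ, i < j → m ^ i < m ^ j := fun i j hij =>
    pow_lt_pow_right₀ (lt_of_lt_of_le (by norm_num) hm) hij
  -- (i)
  have hi : (p : ℝ) ^ 12 * 2 ^ 55 < D ^ (p - 1) := by
    calc (p : ℝ) ^ 12 * 2 ^ 55 ≤ m ^ 16 := h1
      _ < m ^ 48 := hmlt _ _ (by norm_num)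
      _ = (m ^ 3) ^ 16 := by ring
      _ ≤ D ^ 16 := pow_le_pow_left₀ (by positivity) hD 16
      _ ≤ D ^ (p - 1) := pow_le_pow_right₀ hD1 (by omega)
  -- (ii)
  have hc3 : c ^ 3 ≤ m ^ 7 := by
    calc c ^ 3 ≤ (3 * m ^ 2) ^ 3 := pow_le_pow_left₀ hc0.le hc 3
      _ = 27 * m ^ 6 := by ring
      _ ≤ m * m ^ 6 := by
        apply mul_le_mul_of_nonneg_right _ (by positivity)
        exact le_trans (by norm_num) hm
      _ = m ^ 7 := by ring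
  have hii : (p : ℝ) ^ 12 * 2 ^ 55 * c ^ 3 < D ^ (p - 1) * D := by
    calc (p : ℝ) ^ 12 * 2 ^ 55 * c ^ 3 ≤ m ^ 16 * m ^ 7 :=
          mul_le_mul h1 hc3 (by positivity) (by positivity)
      _ = m ^ 23 := by ring
      _ < m ^ 51 := hmlt _ _ (by norm_num)
      _ = (m ^ 3) ^ 16 * m ^ 3 := by ring
      _ ≤ D ^ 16 * D := mul_le_mul (pow_le_pow_left₀ (by positivity) hD 16) hD (by positivity)
          (by positivity)
      _ ≤ D ^ (p - 1) * D := by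
        apply mul_le_mul_of_nonneg_right _ hD0.le
        exact pow_le_pow_right₀ hD1 (by omega)
  have hDp : 0 < D ^ (p - 1) := by positivity
  have habs : (|c ^ 3 / D|)⁻¹ = D / c ^ 3 := by
    rw [abs_of_pos (by positivity), inv_div]
  rw [habs, inv_pow, div_lt_iff₀ hDp]
  rcases le_total 1 (D / c ^ 3) with h | h
  · rw [min_eq_left h, mul_one]
    rw [inv_mul_eq_div, lt_div_iff₀ (by positivity)]
    exact hi
  · rw [min_eq_right h]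
    have hc3pos : 0 < c ^ 3 := by positivity
    have : (2 ^ 55 : ℝ)⁻¹ * (D / c ^ 3) * D ^ (p - 1) = (D ^ (p - 1) * D) / (2 ^ 55 * c ^ 3) := by
      field_simp
    rw [this, lt_div_iff₀ (by positivity)]
    calc (p : ℝ) ^ 12 * (2 ^ 55 * c ^ 3) = (p : ℝ) ^ 12 * 2 ^ 55 * c ^ 3 := by ring
      _ < _ := hii

theorem size_arith (x y : ℝ) (hx : 1 ≤ |x|) (hy : 1 ≤ |y|) (hz : 1 ≤ |x + y|) :
    (max |x| |y|) ^ 2 ≤ 2 * (|x| * |y| * |x + y|) := by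
  have key : ∀ x y : ℝ, 1 ≤ |x| → 1 ≤ |y| → 1 ≤ |x + y| → |x| ≤ |y| →
      |y| ^ 2 ≤ 2 * (|x| * |y| * |x + y|) := by
    intro x y hx hy hz hxy
    have h1 : |y| - |x| ≤ |x + y| := by
      have := abs_sub_abs_le_abs_sub y (-x)
      rw [abs_neg, sub_neg_eq_add, add_comm y x] at this
      exact this
    have h2 : |y| ≤ 2 * (|x| * |x + y|) := by
      rcases le_total |y| (2 * |x|) with h | h
      · nlinarith
      · nlinarith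
    have hy0 : 0 ≤ |y| := abs_nonneg y
    nlinarith
  rcases le_total |x| |y| with h | h
  · rw [max_eq_right h]; exact key x y hx hy hz h
  · rw [max_eq_left h]
    have := key y x hy hx (by rwa [add_comm]) h
    rw [add_comm y x] at this
    linarith

theorem size_lt (P : FreyPackage) (hp : 17 ≤ P.p) :
    (P.p : ℝ) ^ 12 / (freyD P : ℝ) ^ (P.p - 1) <
      (2 : ℝ)⁻¹ ^ 55 * min 1 (|((freyC4 P : ℝ) ^ 3 / (freyD P : ℝ))|)⁻¹ := by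
  set x : ℝ := ((P.a ^ P.p : ℤ) : ℝ) with hx
  set y : ℝ := ((P.b ^ P.p : ℤ) : ℝ) with hy
  have hz : x + y = ((P.c ^ P.p : ℤ) : ℝ) := by
    rw [hx, hy, ← Int.cast_add, P.hFLT]
  have hD : ((freyD P : ℚ) : ℝ) = (x * y * (x + y)) ^ 2 / 256 := by
    rw [hz, hx, hy]
    unfold freyD
    push_cast
    ring
  have hC : ((freyC4 P : ℚ) : ℝ) = x ^ 2 + x * y + y ^ 2 := by
    rw [hx, hy]
    unfold freyC4
    push_cast
    ring
  have one_le : ∀ n : ℤ, n ≠ 0 → (1 : ℝ) ≤ |((n : ℤ) : ℝ)| := by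
    intro n hn
    rw [← Int.cast_abs]
    exact_mod_cast Int.one_le_abs hn
  have hx1 : 1 ≤ |x| := one_le _ (pow_ne_zero _ P.ha0)
  have hy1 : 1 ≤ |y| := one_le _ (pow_ne_zero _ P.hb0)
  have hz1 : 1 ≤ |x + y| := by rw [hz]; exact one_le _ (pow_ne_zero _ P.hc0)
  have hb2 : (2 : ℤ) ≤ |P.b| := by
    have h2 : (2 : ℤ) ∣ P.b := by
      have := P.hb2
      exact_mod_cast (ZMod.intCast_zmod_eq_zero_iff_dvd P.b 2).1 this
    have h3 : (2 : ℤ) ∣ |P.b| := (dvd_abs _ _).2 h2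
    exact Int.le_of_dvd (abs_pos.2 P.hb0) h3
  have hy2 : (2 : ℝ) ^ P.p ≤ |y| := by
    rw [hy, ← Int.cast_abs, abs_pow]
    have : (2 : ℤ) ^ P.p ≤ |P.b| ^ P.p := pow_le_pow_left₀ (by norm_num) hb2 _
    exact_mod_cast this
  set m : ℝ := max |x| |y| with hm
  have hym : |y| ≤ m := le_max_right _ _
  have hxm : |x| ≤ m := le_max_left _ _
  have h2p : (2 : ℝ) ^ P.p ≤ m := hy2.trans hym
  have hm17 : (2 : ℝ) ^ 17 ≤ m := le_trans (pow_le_pow_right₀ (by norm_num) hp) h2p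
  have hpm : (P.p : ℝ) ≤ m := by
    refine le_trans ?_ h2p
    exact_mod_cast (Nat.lt_two_pow_self (n := P.p)).le
  have hm0 : 0 < m := lt_of_lt_of_le (by positivity) hm17
  have harith := size_arith x y hx1 hy1 hz1
  rw [← hm] at harith
  have hDm : m ^ 3 ≤ (x * y * (x + y)) ^ 2 / 256 := by
    have h1 : (x * y * (x + y)) ^ 2 = (|x| * |y| * |x + y|) ^ 2 := by
      rw [← abs_mul, ← abs_mul, sq_abs]
    rw [h1]
    set w := |x| * |y| * |x + y| with hw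
    have hw0 : 0 ≤ w := by positivity
    have h2 : m ^ 4 ≤ 4 * w ^ 2 := by
      have : (m ^ 2) ^ 2 ≤ (2 * w) ^ 2 := pow_le_pow_left₀ (by positivity) harith 2
      nlinarith
    have h3 : 1024 * m ^ 3 ≤ m ^ 4 := by
      have : (1024 : ℝ) ≤ m := le_trans (by norm_num) hm17
      have h4 : 0 ≤ m ^ 3 := by positivity
      nlinarith
    rw [le_div_iff₀ (by norm_num)]
    linarith
  have hy0 : y ≠ 0 := by
    intro h; rw [h, abs_zero] at hy1; linarith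
  have hc0 : 0 < x ^ 2 + x * y + y ^ 2 := by
    have : 0 < y ^ 2 := by positivity
    nlinarith [sq_nonneg (2 * x + y)]
  have hc : x ^ 2 + x * y + y ^ 2 ≤ 3 * m ^ 2 := by
    have h1 : x ^ 2 ≤ m ^ 2 := by rw [← sq_abs x]; exact pow_le_pow_left₀ (abs_nonneg _) hxm 2
    have h2 : y ^ 2 ≤ m ^ 2 := by rw [← sq_abs y]; exact pow_le_pow_left₀ (abs_nonneg _) hym 2
    have h3 : x * y ≤ m ^ 2 := by
      calc x * y ≤ |x * y| := le_abs_self _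
        _ = |x| * |y| := abs_mul _ _
        _ ≤ m * m := mul_le_mul hxm hym (abs_nonneg _) hm0.le
        _ = m ^ 2 := by ring
    linarith
  rw [hD, hC]
  exact size_core P.p hp m _ _ hm17 hpm hDm hc0 hc

end Fermat.Agent.MAZ.End
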