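import Fermat.Agent.MAZ.End.Type23
import Fermat.Agent.MAZ.End.LocLamB
import Fermat.Agent.MAZ.End.Gal2
import Fermat.Agent.MAZ.End.GalP
import Fermat.Agent.MAZ.End.Rat
import Fermat.Agent.MAZ.End.Size
import Fermat.Agent.MAZ.End.ArchPhi
import Fermat.Agent.MAZ.Dict.An

/-!
# MAZ / End / Top : S12 from MAZ-X0
-/

set_option autoImplicit false

namespace Fermat.Agent.MAZ.End

open WeierstrassCurve WeierstrassCurve.Affine WeierstrassCurve.Affine.Point
open FreyPackage UpperHalfPlane
open Fermat.Agent.S05 Fermat.Agent.S13 Fermat.Agent.MAZ.Ell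

/-- What S12-END consumes from MAZ-X0 (the cusp `∞` version): a Galois stable line of the Frey curve which is of toric
type (`|Λ| > 1`) at all places over `2` and `3` is of toric type at all places of multiplicative reduction
prime to `p (p - 1)`. -/
def X0Hyp (P : FreyPackage) : Prop :=
  ∀ Q : (EK P).Point, addOrderOf Q = P.p → (∀ σ : Gl, ∃ k : ℕ, σ • Q = k • Q) →
    (3 : ℤ) ∣ P.a * P.b * P.c →
    (∀ A : ValuationSubring Kb, A.LiesOverPrime 2 → 1 < A.valuation (lam (EK P) P.p Q)) →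
    (∀ A : ValuationSubring Kb, A.LiesOverPrime 3 → 1 < A.valuation (lam (EK P) P.p Q)) →
    ∀ ℓ : ℕ, ℓ.Prime → ¬ ℓ ∣ P.p * (P.p - 1) → (ℓ : ℤ) ∣ P.a * P.b * P.c →
      ∀ A : ValuationSubring Kb, A.LiesOverPrime ℓ → 1 < A.valuation (lam (EK P) P.p Q)

section

variable (P : FreyPackage) (N : Submodule (ZMod P.p) (Tors P))
  (hN : IsGaloisStable ℚ N) (hbot : N ≠ ⊥) (htop : N ≠ ⊤)
  (hcof : ∀ (σ : Gl) (x : Tors P), σ • x - x ∈ N)

include hN hbot htop hcof in
theorem stab_of_mem (x : Tors P) (hx : x ∈ N) (σ : Gl) :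
    ∃ k : ℕ, σ • (x : (EK P).Point) = k • (x : (EK P).Point) := by
  refine ⟨((Fermat.Agent.GAL.cycloChar P.p σ : (ZMod P.p)ˣ) : ZMod P.p).val, ?_⟩
  have h := smul_eq_cycloChar P N hN hbot htop hcof σ x hx
  have h2 := congrArg Subtype.val h
  rw [← ZMod.natCast_zmod_val ((Fermat.Agent.GAL.cycloChar P.p σ : (ZMod P.p)ˣ) : ZMod P.p),
    Nat.cast_smul_eq_nsmul] at h2
  exact h2

include hN hbot htop hcof in
/-- `Ψ(x(kQ))⁻¹` is integral at every place. -/
theorem inv_psiX_mem (hp : 17 ≤ P.p) (hX0 : X0Hyp P) {ℓ : ℕ} (hℓ : ℓ.Prime)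
    (A : ValuationSubring Kb) (hA : A.LiesOverPrime ℓ) (x : Tors P) (hx : x ∈ N) (hx0 : x ≠ 0)
    (k : ℕ) (hk : ¬ P.p ∣ k) : (psiX (EK P) (xc (k • (x : (EK P).Point))))⁻¹ ∈ A := by
  have hp2 : P.p ≠ 2 := by omega
  have hqA : A.valuation ((ℓ : ℕ) : Kb) < 1 := hA
  have hkZ : ¬ (P.p : ℤ) ∣ (k : ℤ) := by exact_mod_cast hk
  have h2kZ : ¬ (P.p : ℤ) ∣ ((2 * k : ℕ) : ℤ) := by
    intro h
    have h' : P.p ∣ 2 * k := by exact_mod_cast h
    rcases (Nat.Prime.dvd_mul P.pp).1 h' with h'' | h''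
    · have := Nat.le_of_dvd (by norm_num) h''
      omega
    · exact hk h''
  have hk0 : k • (x : (EK P).Point) ≠ 0 := by
    have := zsmul_ne_zero_of_not_dvd P x hx0 hkZ
    rwa [natCast_zsmul] at this
  have h2k0 : k • (x : (EK P).Point) + k • (x : (EK P).Point) ≠ 0 := by
    have := zsmul_ne_zero_of_not_dvd P x hx0 h2kZ
    rwa [natCast_zsmul, two_mul, add_smul] at this
  have inv_of_one : ∀ z : Kb, A.valuation z = 1 → z⁻¹ ∈ A := by
    intro z hz
    rw [← A.valuation_le_one_iff, map_inv₀, hz, inv_one]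
  by_cases hℓp : ℓ = P.p
  · -- the place `p`
    subst hℓp
    have h2 : A.valuation (2 : Kb) = 1 := by
      have := valuation_natCast_eq_one A P.pp hqA (n := 2) (fun h => by
        have := Nat.le_of_dvd (by norm_num) h
        omega)
      simpa using this
    refine inv_psiX_mem_of_not_mem (EK_intData P A) h2 ?_
    have hkx : (k • x : Tors P) ∈ N := N.smul_of_tower_mem k hx
    have hkx0 : (k • x : Tors P) ≠ 0 := by
      intro h
      apply hk0
      have := congrArg Subtype.val h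
      simpa using this
    have := xc_not_mem_of_mem_line P N hN hbot htop A hA (k • x) hkx hkx0
    simpa using this
  · have hxk : xc (k • (x : (EK P).Point)) ∈ A := by
      have := xc_zsmul_mem P hℓ hℓp A hA x (k : ℤ) (by rwa [natCast_zsmul])
      rwa [natCast_zsmul] at this
    have hx2k : xc (k • (x : (EK P).Point) + k • (x : (EK P).Point)) ∈ A := by
      have := xc_zsmul_mem P hℓ hℓp A hA x ((2 * k : ℕ) : ℤ)
        (by rwa [natCast_zsmul, two_mul, add_smul])
      rwa [natCast_zsmul, two_mul, add_smul] at this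
    by_cases hdvd : (ℓ : ℤ) ∣ P.a * P.b * P.c
    · -- multiplicative reduction
      obtain ⟨x0, c, b', H, hx0A, hb', hc0, hc1⟩ := frey_shift P hℓ hdvd A hA
      have hord := addOrderOf_tors P x hx0
      have hint : ∀ k : ℤ, ¬ (P.p : ℤ) ∣ k → xc (k • (x : (EK P).Point)) ∈ A := fun k hk =>
        xc_zsmul_mem P hℓ hℓp A hA x k (zsmul_ne_zero_of_not_dvd P x hx0 hk)
      have hpA : A.valuation ((P.p : ℕ) : Kb) = 1 :=
        valuation_natCast_eq_one A hℓ hqA
          (fun h => hℓp ((Nat.prime_dvd_prime_iff_eq hℓ P.pp).1 h))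
      have h3 : (3 : ℤ) ∣ P.a * P.b * P.c :=
        three_dvd_abc P (by omega) N hN hbot htop hcof
      have hlam : 1 < A.valuation (lam (EK P) P.p (x : (EK P).Point)) := by
        by_cases hpm : ¬ (P.p : ℤ) ∣ 1 - ℓ ∧ ¬ (P.p : ℤ) ∣ 1 + ℓ
        · exact one_lt_val_lam_of_frob P N hN hbot htop hcof hℓ hℓp hdvd hpm.1 hpm.2 A hA x hx hx0
        have hnd : ¬ ℓ ∣ P.p * (P.p - 1) := by
          intro hd
          have hℓ2 := hℓ.two_le
          have hle : ℓ ≤ P.p - 1 := by
            rcases (Nat.Prime.dvd_mul hℓ).1 hd with h | h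
            · exact absurd ((Nat.prime_dvd_prime_iff_eq hℓ P.pp).1 h) hℓp
            · exact Nat.le_of_dvd (by omega) h
          apply hpm
          constructor
          · intro h
            have h' : (P.p : ℤ) ∣ (ℓ : ℤ) - 1 := by
              have := (dvd_neg).2 h
              rwa [neg_sub] at this
            have := Int.le_of_dvd (by omega) h'
            omega
          · intro h
            have h1 := Int.le_of_dvd (by omega) h
            have h2 : ℓ = P.p - 1 := by omega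
            obtain ⟨m, hm⟩ := P.hp_odd
            have h3 : 2 ∣ ℓ := ⟨m, by omega⟩
            have h4 := (Nat.prime_dvd_prime_iff_eq Nat.prime_two hℓ).1 h3
            omega
        refine hX0 x hord (stab_of_mem P N hN hbot htop hcof x hx) h3 ?_ ?_ ℓ hℓ hnd hdvd A hA
        · intro A' hA'
          refine one_lt_val_lam_of_frob P N hN hbot htop hcof Nat.prime_two (by omega)
            P.two_dvd_abc ?_ ?_ A' hA' x hx hx0
          · intro h
            have := Int.le_of_dvd (by norm_num) ((dvd_neg).2 h)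
            norm_num at this
            omega
          · intro h
            have := Int.le_of_dvd (by norm_num) h
            norm_num at this
            omega
        · intro A' hA'
          refine one_lt_val_lam_of_frob P N hN hbot htop hcof Nat.prime_three (by omega)
            h3 ?_ ?_ A' hA' x hx hx0
          · intro h
            have := Int.le_of_dvd (by norm_num) ((dvd_neg).2 h)
            norm_num at this
            omega
          · intro h
            have := Int.le_of_dvd (by norm_num) h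
            norm_num at this
            omega
      have hU := units_of_one_lt_val_lam H hx0A hb' hc0 hc1 P.pp hp2 hpA hord hint hlam (k : ℤ) hkZ
      rw [natCast_zsmul] at hU
      exact inv_of_one _ (val_psiX_eq_one_of_unit H hx0A
        ((A.valuation_le_one_iff _).1 hb'.le) hc1 hk0 h2k0 hU hx2k)
    · -- good reduction
      exact inv_of_one _ (val_psiX_eq_one_of_good (EK_intData P A)
        (val_EK_Δ_eq_one P hℓ hdvd A hA) hk0 h2k0 hxk hx2k)

end

/-- **S12 from MAZ-X0.** -/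
theorem no_cofixed_of_X0Hyp (P : FreyPackage) (hp : 17 ≤ P.p) (hX0 : X0Hyp P) :
    ¬ HasGaloisStableCofixedLine (K := AlgebraicClosure ℚ) ℚ P.freyCurve P.p := by
  rintro ⟨N, hN, hbot, htop, hcof⟩
  obtain ⟨x, hx, hx0⟩ := Submodule.exists_mem_ne_zero_of_ne_bot hbot
  have hp2 : P.p ≠ 2 := by omega
  have hord := addOrderOf_tors P x hx0
  obtain ⟨r, hr⟩ := exists_rat_prod P (x : (EK P).Point) hord
    (stab_of_mem P N hN hbot htop hcof x hx)
  have hnd : ∀ k ∈ Finset.Ico 1 P.p, ¬ P.p ∣ k := by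
    intro k hk h
    rw [Finset.mem_Ico] at hk
    have := Nat.le_of_dvd (by omega) h
    omega
  have hr0 : r ≠ 0 := by
    intro h
    rw [h, Rat.cast_zero] at hr
    obtain ⟨k, hk, hk0⟩ := Finset.prod_eq_zero_iff.1 hr.symm
    exact psiX_ne_zero P.p P.hp_odd (x : (EK P).Point) hord k (hnd k hk) hk0
  obtain ⟨n, hn⟩ := exists_int_of_forall_mem r⁻¹ (fun ℓ hℓ => by
    obtain ⟨A, hA⟩ := exists_place ℓ hℓ
    refine ⟨A, hA, ?_⟩
    rw [Rat.cast_inv, hr, ← Finset.prod_inv_distrib]
    exact prod_mem (fun k hk =>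
      inv_psiX_mem P N hN hbot htop hcof hp hX0 hℓ A hA x hx hx0 k (hnd k hk)))
  have hn0 : n ≠ 0 := by
    rintro rfl
    rw [Int.cast_zero] at hn
    exact hr0 (inv_eq_zero.1 hn)
  have habs : |(r : ℝ)| ≤ 1 := by
    have h1 : (1 : ℝ) ≤ |(n : ℝ)| := by
      have : (1 : ℤ) ≤ |n| := Int.one_le_abs hn0
      exact_mod_cast this
    have h2 : (r : ℝ)⁻¹ = (n : ℝ) := by
      have := congrArg (fun q : ℚ => (q : ℝ)) hn
      simpa using this
    have h3 : |(r : ℝ)|⁻¹ = |(n : ℝ)| := by rw [← abs_inv, h2]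
    have h4 : 0 < |(r : ℝ)| := abs_pos.2 (by exact_mod_cast hr0)
    rw [← h3] at h1
    exact (one_le_inv₀ h4).1 h1
  have hD := freyD_pos P
  have hC := freyC4_pos P
  obtain ⟨τ, hj, hl⟩ := Fermat.Agent.MAZ.Dict.exists_tau_of_point
    (Fermat.Agent.S24.iotaK : Kb →+* ℂ) (EK P) P.p P.pp hp2 (x : (EK P).Point) hord
    (by rw [EK_c₄_eq]; exact_mod_cast hC.ne') (EK_c₆_ne_zero P) (EK_Δ_ne_zero P)
  have harch := arch_lower P.p τ
  have hj' : ‖Fermat.Agent.S24.jfun τ‖ = |(freyC4 P : ℝ) ^ 3 / (freyD P : ℝ)| := by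
    rw [hj, EK_c₄_eq, EK_Δ_eq, map_div₀, map_pow]
    simp only [RingHom.coe_coe, map_ratCast]
    rw [← Complex.ofReal_ratCast, ← Complex.ofReal_ratCast, ← Complex.ofReal_pow,
      ← Complex.ofReal_div, Complex.norm_real, Real.norm_eq_abs]
  have hl' : ‖ModularForm.discriminant τ / ModularForm.discriminant (Fermat.Agent.S24.scal P.p τ)‖
      = (P.p : ℝ) ^ 12 * (r : ℝ) ^ 2 / (freyD P : ℝ) ^ (P.p - 1) := by
    rw [hl, lam, ← hr, EK_Δ_eq, map_div₀, map_mul, map_pow, map_pow, map_pow]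
    simp only [RingHom.coe_coe, map_ratCast, map_natCast]
    rw [← Complex.ofReal_ratCast, ← Complex.ofReal_ratCast, ← Complex.ofReal_natCast,
      ← Complex.ofReal_pow, ← Complex.ofReal_pow, ← Complex.ofReal_pow, ← Complex.ofReal_mul,
      ← Complex.ofReal_div, Complex.norm_real, Real.norm_eq_abs, abs_of_nonneg]
    have : (0 : ℝ) < (freyD P : ℝ) := by exact_mod_cast hD
    positivity
  rw [hj', hl'] at harch
  have hsize := size_lt P hp
  have hDR : (0 : ℝ) < (freyD P : ℝ) := by exact_mod_cast hD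
  have hle : (P.p : ℝ) ^ 12 * (r : ℝ) ^ 2 / (freyD P : ℝ) ^ (P.p - 1)
      ≤ (P.p : ℝ) ^ 12 / (freyD P : ℝ) ^ (P.p - 1) := by
    apply div_le_div_of_nonneg_right _ (by positivity)
    have : (r : ℝ) ^ 2 ≤ 1 := by
      rw [← sq_abs]
      exact pow_le_one₀ (abs_nonneg _) habs
    nlinarith [pow_pos (show (0 : ℝ) < (P.p : ℝ) by exact_mod_cast P.hppos) 12]
  linarith

end Fermat.Agent.MAZ.End
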