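import Fermat.Agent.MAZ.End.LocInj
import Fermat.Agent.MAZ.End.LocLamA
import Fermat.Agent.MAZ.End.Gal1
import Fermat.Agent.MAZ.End.FreyInv

/-!
# MAZ / End / [TYPE]  the cofixed line is toric at every multiplicative `ℓ ≠ p` with `ℓ ≢ ±1 mod p`
-/

set_option autoImplicit false

namespace Fermat.Agent.MAZ.End

open WeierstrassCurve WeierstrassCurve.Affine WeierstrassCurve.Affine.Point
open FreyPackage
open Fermat.Agent.S05 Fermat.Agent.S13 Fermat.Agent.MAZ.Ell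

/-- order of a nonzero torsion point -/
theorem addOrderOf_tors (P : FreyPackage) (x : Tors P) (hx0 : x ≠ 0) :
    addOrderOf (x : (EK P).Point) = P.p := by
  have h1 : P.p • (x : (EK P).Point) = 0 := tors_nsmul P x
  have h2 : addOrderOf (x : (EK P).Point) ∣ P.p := addOrderOf_dvd_of_nsmul_eq_zero h1
  rcases (Nat.dvd_prime P.pp).1 h2 with h | h
  · exfalso
    apply hx0
    apply Subtype.ext
    simpa using AddMonoid.addOrderOf_eq_one_iff.1 h
  · exact h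

/-- torsion points have integral `x`-coordinates away from `p`. -/
theorem xc_zsmul_mem (P : FreyPackage) {ℓ : ℕ} (hℓ : ℓ.Prime) (hℓp : ℓ ≠ P.p)
    (A : ValuationSubring Kb) (hA : A.LiesOverPrime ℓ) (x : Tors P) (k : ℤ)
    (hk : k • (x : (EK P).Point) ≠ 0) : xc (k • (x : (EK P).Point)) ∈ A := by
  have hqA : A.valuation ((ℓ : ℕ) : Kb) < 1 := hA
  have D : PrimeData A P.p ℓ :=
    ⟨P.pp, by have := P.hp5; omega, hℓ, hℓp.symm, hqA⟩
  rw [← A.valuation_le_one_iff]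
  refine tors_x (EK_intData P A) D hk ?_
  rw [smul_comm, tors_nsmul, smul_zero]

theorem zsmul_ne_zero_of_not_dvd (P : FreyPackage) (x : Tors P) (hx0 : x ≠ 0) {k : ℤ}
    (hk : ¬ (P.p : ℤ) ∣ k) : k • (x : (EK P).Point) ≠ 0 := by
  intro h
  apply hk
  have := (addOrderOf_dvd_iff_zsmul_eq_zero (x := (x : (EK P).Point)) (i := k)).2 h
  rwa [addOrderOf_tors P x hx0] at this

theorem one_lt_val_lam_of_frob (P : FreyPackage) (N : Submodule (ZMod P.p) (Tors P))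
    (hN : IsGaloisStable ℚ N) (hbot : N ≠ ⊥) (htop : N ≠ ⊤)
    (hcof : ∀ (σ : Gl) (x : Tors P), σ • x - x ∈ N) {ℓ : ℕ} (hℓ : ℓ.Prime) (hℓp : ℓ ≠ P.p)
    (hdvd : (ℓ : ℤ) ∣ P.a * P.b * P.c) (h1 : ¬ (P.p : ℤ) ∣ 1 - ℓ) (h2 : ¬ (P.p : ℤ) ∣ 1 + ℓ)
    (A : ValuationSubring Kb) (hA : A.LiesOverPrime ℓ) (x : Tors P) (hx : x ∈ N) (hx0 : x ≠ 0) :
    1 < A.valuation (lam (EK P) P.p (x : (EK P).Point)) := by
  obtain ⟨x0, c, b', H, hx0A, hb', hc0, hc1⟩ := frey_shift P hℓ hdvd A hA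
  have hp2 : P.p ≠ 2 := by have := P.hp5; omega
  have hord := addOrderOf_tors P x hx0
  have hint : ∀ k : ℤ, ¬ (P.p : ℤ) ∣ k → xc (k • (x : (EK P).Point)) ∈ A := fun k hk =>
    xc_zsmul_mem P hℓ hℓp A hA x k (zsmul_ne_zero_of_not_dvd P x hx0 hk)
  have hqA : A.valuation ((ℓ : ℕ) : Kb) < 1 := hA
  have hpA : A.valuation ((P.p : ℕ) : Kb) = 1 :=
    valuation_natCast_eq_one A hℓ hqA (fun h => hℓp ((Nat.prime_dvd_prime_iff_eq hℓ P.pp).1 h))
  refine one_lt_val_lam_of_units H hx0A hb' hc0 hc1 P.pp hp2 hpA hord hint ?_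
  by_contra hcon
  push Not at hcon
  obtain ⟨k₀, hk₀, hnu⟩ := hcon
  -- a Frobenius lift
  obtain ⟨τ, hτ⟩ := Fermat.Agent.S54.exists_isFrobeniusAt_of_liesOverPrime hℓ A hA
  have hχ : ((Fermat.Agent.GAL.cycloChar P.p τ : (ZMod P.p)ˣ) : ZMod P.p) = ℓ :=
    Fermat.Agent.GAL.cycloChar_of_isFrobeniusAt hℓ hℓp hA hτ
  have hτx : τ • x = (ℓ : ZMod P.p) • x := by
    rw [smul_eq_cycloChar P N hN hbot htop hcof τ x hx, hχ]
  have hτx' : τ • (x : (EK P).Point) = (ℓ : ℤ) • (x : (EK P).Point) := by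
    have := congrArg (Subtype.val) hτx
    rw [Nat.cast_smul_eq_nsmul] at this
    rw [natCast_zsmul]
    exact this
  have hℓnd : ¬ (P.p : ℤ) ∣ (ℓ : ℤ) := by
    intro h
    exact hℓp ((Nat.prime_dvd_prime_iff_eq P.pp hℓ).1 (by exact_mod_cast h)).symm
  have h1nd : ¬ (P.p : ℤ) ∣ (1 : ℤ) := by
    intro h
    have := Int.le_of_dvd one_pos h
    have := P.hp5
    omega
  have hv : A.valuation (xc ((1 : ℤ) • (x : (EK P).Point)) - (x0 : Kb))
      = A.valuation (xc ((ℓ : ℤ) • (x : (EK P).Point)) - (x0 : Kb)) := by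
    rw [one_smul, ← hτx', xc_smul, ← val_eq_of_decomp A τ hτ.mem_decompositionSubgroup
      (xc (x : (EK P).Point) - (x0 : Kb)), map_sub, map_ratCast]
  rcases loc_inj H hx0A hb' hc0 hc1 P.pp hp2 hord hint hk₀ hnu h1nd hℓnd hv with h | h
  · exact h1 h
  · exact h2 h

end Fermat.Agent.MAZ.End
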