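import Fermat.Agent.MAZ.End.Top
import Fermat.Agent.MAZ.Val.Dich

/-!
# MAZ / End / X0Light : `X0Hyp P` from the numerical form `CoreNum` of `MAZ.core_inf`   (light imports)
-/

set_option autoImplicit false

namespace Fermat.Agent.MAZ.End

open WeierstrassCurve WeierstrassCurve.Affine WeierstrassCurve.Affine.Point
open FreyPackage
open Fermat.Agent.S05 Fermat.Agent.S13 Fermat.Agent.MAZ.Ell

/-- `MAZ.exists_place_of_point` + `MAZ.core_inf`, without the place. -/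
def CoreNum (N : ℕ) : Prop :=
  ∀ (W : WeierstrassCurve.Affine Kb) (Q : W.Point), addOrderOf Q = N → W.c₄ ≠ 0 → W.c₆ ≠ 0 →
    W.Δ ≠ 0 → lam W N Q ≠ 0 →
    (∀ σ : Gl, σ (W.c₄ ^ 3 / W.Δ) = W.c₄ ^ 3 / W.Δ) → (∀ σ : Gl, σ (lam W N Q) = lam W N Q) →
    ∀ (A₂ A₃ A : ValuationSubring Kb), A₂.LiesOverPrime 2 → A₃.LiesOverPrime 3 →
    ∀ ℓ : ℕ, ℓ.Prime → ℓ ≠ N → ¬ ℓ ∣ N - 1 → A.LiesOverPrime ℓ →
    A₂.valuation (W.c₄ ^ 3 / W.Δ)⁻¹ < 1 → A₂.valuation (lam W N Q)⁻¹ < 1 →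
    A₃.valuation (W.c₄ ^ 3 / W.Δ)⁻¹ < 1 → A₃.valuation (lam W N Q)⁻¹ < 1 →
    A.valuation (lam W N Q) < 1 → A.valuation (W.c₄ ^ 3 / W.Δ * lam W N Q)⁻¹ < 1 → False

/-- valuations of `c₄`, `Δ` at a multiplicative place. -/
theorem val_c₄_Δ (P : FreyPackage) {ℓ : ℕ} (hℓ : ℓ.Prime) (hdvd : (ℓ : ℤ) ∣ P.a * P.b * P.c)
    (A : ValuationSubring Kb) (hA : A.LiesOverPrime ℓ) :
    A.valuation (EK P).c₄ = 1 ∧ A.valuation (EK P).Δ < 1 := by
  obtain ⟨x0, c, b', H, -, hb', -, hc1⟩ := frey_shift P hℓ hdvd A hA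
  have hn : ∀ n : ℕ, A.valuation ((n : Kb) * (c : Kb)) < 1 := by
    intro n
    rw [map_mul]
    exact mul_lt_one_of_le_of_lt₀ (valuation_natCast_le_one A n) hc1
  have hb2 : A.valuation ((b' : Kb) ^ 2) = 1 := by rw [map_pow, hb', one_pow]
  constructor
  · rw [Fermat.Agent.MAZ.Val.ShiftData.c₄_eq H]
    have h48 := hn 48
    rw [Valuation.map_sub_eq_of_lt_left _ (by rw [hb2]; exact_mod_cast h48), hb2]
  · rw [ShiftData_disc H, map_mul, map_pow]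
    have h64 := hn 64
    rw [Valuation.map_sub_eq_of_lt_left _ (by rw [hb2]; exact_mod_cast h64), hb2, mul_one]
    exact pow_lt_one₀ zero_le hc1 two_ne_zero

theorem x0Hyp_of_coreNum (P : FreyPackage) (hp : 17 ≤ P.p) (hcore : CoreNum P.p) : X0Hyp P := by
  intro Q hord hstab h3 hv2 hv3 ℓ hℓ hnd hdvd A hA
  have hp2 : P.p ≠ 2 := by omega
  have hℓp : ℓ ≠ P.p := fun h => hnd (h ▸ dvd_mul_right _ _)
  have hℓp1 : ¬ ℓ ∣ P.p - 1 := fun h => hnd (h.mul_left _)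
  by_contra hcon
  obtain ⟨x0, c, b', H, hx0A, hb', hc0, hc1⟩ := frey_shift P hℓ hdvd A hA
  have hpQ : P.p • Q = 0 := by rw [← hord]; exact addOrderOf_nsmul_eq_zero Q
  set x : Tors P := ⟨Q, (mem_tors_iff P Q).2 hpQ⟩ with hx
  have hx0 : x ≠ 0 := by
    intro h
    have h1 : Q = 0 := congrArg Subtype.val h
    rw [h1, addOrderOf_zero] at hord
    omega
  have hint : ∀ k : ℤ, ¬ (P.p : ℤ) ∣ k → xc (k • Q) ∈ A := fun k hk =>
    xc_zsmul_mem P hℓ hℓp A hA x k (zsmul_ne_zero_of_not_dvd P x hx0 hk)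
  have hqA : A.valuation ((ℓ : ℕ) : Kb) < 1 := hA
  have hpA : A.valuation ((P.p : ℕ) : Kb) = 1 :=
    valuation_natCast_eq_one A hℓ hqA (fun h => hℓp ((Nat.prime_dvd_prime_iff_eq hℓ P.pp).1 h))
  have h1nd : ¬ (P.p : ℤ) ∣ (1 : ℤ) := by
    intro h
    have := Int.le_of_dvd one_pos h
    omega
  have hnon : A.valuation (xc Q - (x0 : Kb)) < 1 := by
    rcases loc_pattern H hx0A hb' hc0 hc1 P.pp hp2 hord hint with hU | ⟨hlt, -⟩
    · exact absurd (one_lt_val_lam_of_units H hx0A hb' hc0 hc1 P.pp hp2 hpA hord hint hU) hcon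
    · simpa using hlt 1 h1nd
  have hvc := val_c₄_Δ P hℓ hdvd A hA
  have hΔc : A.valuation (EK P).Δ = A.valuation (c : Kb) ^ 2 := by
    have hb2 : A.valuation ((b' : Kb) ^ 2) = 1 := by rw [map_pow, hb', one_pow]
    have h64 : A.valuation ((64 : Kb) * (c : Kb)) < 1 := by
      rw [map_mul]
      have := valuation_natCast_le_one A 64
      exact mul_lt_one_of_le_of_lt₀ (by exact_mod_cast this) hc1
    rw [ShiftData_disc H, map_mul, map_pow,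
      Valuation.map_sub_eq_of_lt_left _ (by rw [hb2]; exact h64), hb2, mul_one]
  obtain ⟨t, ht0, ht1, hlamt, hΔt⟩ := Fermat.Agent.MAZ.Val.val_lam_nonunit A.valuation H
    ((A.valuation_le_one_iff _).2 hx0A) hb' hc1 hc0 hΔc P.pp hp2 hpA Q hord
    (fun k hk => by
      have := hint (k : ℤ) (by exact_mod_cast hk)
      rw [natCast_zsmul] at this
      exact (A.valuation_le_one_iff _).2 this) hnon
  obtain ⟨A₂, hA₂⟩ := exists_place 2 Nat.prime_two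
  obtain ⟨A₃, hA₃⟩ := exists_place 3 Nat.prime_three
  have hD := freyD_pos P
  have hC := freyC4_pos P
  have hc₄ : (EK P).c₄ ≠ 0 := by rw [EK_c₄_eq]; exact_mod_cast hC.ne'
  have hlam2 := hv2 A₂ hA₂
  have hlam0 : lam (EK P) P.p Q ≠ 0 := by
    intro h
    rw [h, _root_.map_zero] at hlam2
    exact absurd hlam2 (by simp)
  obtain ⟨r, hr⟩ := exists_rat_prod P Q hord hstab
  have inv_lt : ∀ (B : ValuationSubring Kb) (z : Kb), 1 < B.valuation z → B.valuation z⁻¹ < 1 := by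
    intro B z hz
    rw [map_inv₀]
    exact inv_lt_one_of_one_lt₀ hz
  have jinv : ∀ (B : ValuationSubring Kb), B.valuation (EK P).c₄ = 1 ∧ B.valuation (EK P).Δ < 1 →
      B.valuation ((EK P).c₄ ^ 3 / (EK P).Δ)⁻¹ < 1 := by
    intro B hB
    rw [inv_div, map_div₀, map_pow, hB.1, one_pow, div_one]
    exact hB.2
  refine hcore (EK P) Q hord hc₄ (EK_c₆_ne_zero P) (EK_Δ_ne_zero P) hlam0 ?_ ?_ A₂ A₃ A hA₂ hA₃ ℓ hℓ
    hℓp hℓp1 hA (jinv A₂ (val_c₄_Δ P Nat.prime_two P.two_dvd_abc A₂ hA₂)) (inv_lt _ _ hlam2)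
    (jinv A₃ (val_c₄_Δ P Nat.prime_three h3 A₃ hA₃)) (inv_lt _ _ (hv3 A₃ hA₃)) ?_ ?_
  · intro σ
    rw [EK_c₄_eq, EK_Δ_eq]
    simp
  · intro σ
    rw [lam, ← hr, EK_Δ_eq]
    simp
  · rw [hlamt]
    exact pow_lt_one₀ zero_le ht1 (by omega)
  · rw [map_inv₀, map_mul, map_div₀, map_pow, hvc.1, one_pow, hlamt, hΔt]
    have e : t ^ P.p = t ^ (P.p - 1) * t := by
      rw [← pow_succ]
      congr 1
      omega
    rw [e, one_div, mul_inv_rev (t ^ (P.p - 1)) t, mul_assoc,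
      inv_mul_cancel₀ (pow_ne_zero _ ht0), mul_one, inv_inv]
    exact ht1

end Fermat.Agent.MAZ.End
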